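import Fermat.Agent.DeligneSerre.Finite.Image

/-!
The theorem of Deligne and Serre from the mod `λ` representations.
-/

set_option autoImplicit false

noncomputable section

open CongruenceSubgroup
open scoped MatrixGroups

namespace FLTA.DeligneSerre

local notation "Qb" => AlgebraicClosure ℚ
local notation "Γℚ" => (Qb ≃ₐ[ℚ] Qb)

/-- The automorphisms of `Qb` act on roots of unity by every exponent prime to the order. -/
theorem exists_algEquiv_rootsOfUnity_pow {n u : ℕ} (hn : 0 < n) (hu : u.Coprime n) :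
    ∃ σ : Γℚ, ∀ ζ : Qb, ζ ^ n = 1 → σ ζ = ζ ^ u := by
  haveI : IsAlgClosure ℚ Qb := ⟨inferInstance, AlgebraicClosure.isAlgebraic ℚ⟩
  haveI : Normal ℚ Qb := IsAlgClosure.normal ℚ Qb
  have : NeZero n := ⟨hn.ne'⟩
  have : NeZero (n : Qb) := ⟨Nat.cast_ne_zero.mpr hn.ne'⟩
  obtain ⟨z, hz⟩ := HasEnoughRootsOfUnity.exists_primitiveRoot Qb n
  have h1 := (hz.pow_of_coprime u hu).isRoot_cyclotomic hn
  have h2 : Polynomial.aeval (z ^ u) (minpoly ℚ z) = 0 := by
    rw [← Polynomial.cyclotomic_eq_minpoly_rat hz hn, Polynomial.aeval_def,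
      ← Polynomial.eval_map, Polynomial.map_cyclotomic]
    exact h1
  obtain ⟨σ, hσ⟩ := minpoly.exists_algEquiv_of_root (Algebra.IsAlgebraic.isAlgebraic z) h2
  refine ⟨σ.symm, fun ζ hζ => ?_⟩
  obtain ⟨i, -, rfl⟩ := hz.eq_pow_of_pow_eq_one hζ
  have hσ' : σ.symm z = z ^ u := σ.injective (by rw [σ.apply_symm_apply, hσ])
  rw [map_pow, hσ', pow_right_comm]

/-- A character of a finite group has values among the algebraic roots of unity. -/
theorem exists_iota_eq_char {G : Type} [Group G] [Fintype G] (χ : G →* ℂ) (g : G) :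
    ∃ ζ : Qb, ζ ^ Fintype.card G = 1 ∧ iota ζ = χ g := by
  have : NeZero (Fintype.card G) := ⟨Fintype.card_ne_zero⟩
  have : NeZero ((Fintype.card G : ℕ) : Qb) := ⟨Nat.cast_ne_zero.mpr Fintype.card_ne_zero⟩
  obtain ⟨z, hz⟩ := HasEnoughRootsOfUnity.exists_primitiveRoot Qb (Fintype.card G)
  obtain ⟨i, -, hi⟩ := (hz.map_of_injective iota.injective).eq_pow_of_pow_eq_one
    (show χ g ^ Fintype.card G = 1 by rw [← map_pow, pow_card_eq_one, map_one])
  refine ⟨z ^ i, by rw [pow_right_comm, hz.pow_eq_one, one_pow], ?_⟩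
  rw [map_pow, hi]

/-- The theorem of Deligne and Serre, given the eigenvalue data. -/
theorem exists_rep_of_eigen_data (N : ℕ) [NeZero N] (ε : DirichletCharacter ℂ N)
    (f : CuspForm (Gamma1 N) 1) (hf : IsEigenOne N ε f) :
    ∃ ρ : Γℚ →* GL (Fin 2) ℂ, GaloisFactorsThroughFiniteLevel ρ ∧
      (Deformation.matrixRepresentation ρ).IsIrreducible ∧
      ∀ p : ℕ, p.Prime → ¬ p ∣ N →
        ∀ A : ValuationSubring Qb, A.LiesOverPrime p →
          (∀ σ ∈ A.inertiaSubgroupIn ℚ, ρ σ = 1) ∧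
          ∀ σ : Γℚ, A.IsFrobeniusAt σ p →
            ((ρ σ : GL (Fin 2) ℂ) : Matrix (Fin 2) (Fin 2) ℂ).trace =
              ModularFormClass.qCoeff f p ∧
            ((ρ σ : GL (Fin 2) ℂ) : Matrix (Fin 2) (Fin 2) ℂ).det = ε (p : ZMod N) := by
  obtain ⟨a, e, K, S, hK, he, ha, hconj, hrep⟩ := exists_eigen_data N ε f hf
  have hmass : ∀ σ : Γℚ, ∃ A B : ℝ, 0 ≤ A ∧ ∀ s : ℝ, 1 < s → s ≤ 2 → ∀ P : Finset ℕ,
      (∀ p ∈ P, p.Prime ∧ ¬ p ∣ N) →
        ∑ p ∈ P, ‖iota (σ (a p))‖ ^ 2 * (p : ℝ) ^ (-s) ≤ A * (-Real.log (s - 1)) + B := by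
    intro σ
    obtain ⟨εσ, g, hg, -, hgq⟩ := hconj σ
    obtain ⟨A, B, hA, hb⟩ := exists_cuspForm_sq_mass g hg.1 hg.2
    refine ⟨A, B, hA, fun s h1 h2 P hP => le_trans (le_of_eq ?_) (hb s h1 h2 P hP)⟩
    exact Finset.sum_congr rfl fun p hp => by rw [hgq p (hP p hp).1 (hP p hp).2]
  haveI := hK
  obtain ⟨G, iG, iF, φ, R, M, hM, hφ, hsurj, hdata⟩ :=
    exists_finite_rep (N := N) (a := a) (e := e) (S := S) (K := K)
      (fun p hp hpN => (ha p hp hpN).2) hmass (fun l hl hlS A hA => hrep l hl hlS A hA)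
  let RC : G →* Matrix (Fin 2) (Fin 2) ℂ := iota.mapMatrix.toMonoidHom.comp R
  let ρ : Γℚ →* GL (Fin 2) ℂ := RC.toHomUnits.comp φ
  have hval : ∀ σ, ((ρ σ : GL (Fin 2) ℂ) : Matrix (Fin 2) (Fin 2) ℂ) = RC (φ σ) := fun σ => rfl
  have htr : ∀ g, (RC g).trace = iota (R g).trace := fun g => by
    simp [RC, Matrix.trace_fin_two]
  have hdet : ∀ g, (RC g).det = iota (R g).det := fun g => (RingHom.map_det iota (R g)).symm
  refine ⟨ρ, ?_, ?_, fun p hp hpN A hA => ⟨fun σ hσ => ?_, fun σ hσ => ?_⟩⟩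
  · obtain ⟨L, hL, h⟩ := hφ
    refine ⟨L, hL, fun σ hσ => ?_⟩
    show RC.toHomUnits (φ σ) = 1
    rw [h σ hσ, map_one]
  · refine isIrreducible_of_noCommonEigen ?_
    by_contra hred
    have hred' : ¬ NoCommonEigen RC := by
      intro h
      apply hred
      intro v hv
      obtain ⟨g, hg⟩ := h v hv
      obtain ⟨σ, rfl⟩ := hsurj g
      exact ⟨σ, hg⟩
    obtain ⟨χ₁, χ₂, hχ⟩ := exists_two_characters hred'
    classical
    let au : ℕ → ℕ → ℂ := fun u p =>
      if h : u.Coprime (Fintype.card G) then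
        iota ((exists_algEquiv_rootsOfUnity_pow Fintype.card_pos h).choose (a p))
      else 0
    refine false_of_two_characters hφ hsurj χ₁ χ₂ N.primeFactors au ?_ ?_
    · intro u hu p hp hpS A hA τ hτ
      have hpN : ¬ p ∣ N := fun h => hpS (Nat.mem_primeFactors.mpr ⟨hp, h, NeZero.ne N⟩)
      obtain ⟨ζ₁, hζ₁, hi₁⟩ := exists_iota_eq_char χ₁ (φ τ)
      obtain ⟨ζ₂, hζ₂, hi₂⟩ := exists_iota_eq_char χ₂ (φ τ)
      have hap : a p = ζ₁ + ζ₂ := iota.injective (by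
        rw [map_add, hi₁, hi₂, ← hχ, htr, (((hdata p hp hpN).2 A hA).2 τ hτ).1])
      simp only [au, dif_pos hu]
      set σu := (exists_algEquiv_rootsOfUnity_pow Fintype.card_pos hu).choose
      have hσu := (exists_algEquiv_rootsOfUnity_pow Fintype.card_pos hu).choose_spec
      rw [hap, map_add, hσu _ hζ₁, hσu _ hζ₂, map_add, map_pow, map_pow, hi₁, hi₂, map_pow,
        map_pow]
    · intro u hu
      simp only [au, dif_pos hu]
      set σu := (exists_algEquiv_rootsOfUnity_pow Fintype.card_pos hu).choose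
      obtain ⟨εσ, g, hg, -, hgq⟩ := hconj σu
      obtain ⟨B, hb⟩ := exists_cuspForm_sq_mass_of_bounded g hg.1 hg.2 2 fun p hp hpN => by
        obtain ⟨⟨x, y, hx, hy, hxy⟩, -⟩ := hdata p hp hpN
        rw [hgq p hp hpN, ← hxy, map_add, map_add]
        refine (norm_add_le _ _).trans ?_
        rw [Complex.norm_eq_one_of_pow_eq_one (n := M)
            (by rw [← map_pow, ← map_pow, hx, map_one, map_one]) hM.ne',
          Complex.norm_eq_one_of_pow_eq_one (n := M)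
            (by rw [← map_pow, ← map_pow, hy, map_one, map_one]) hM.ne']
        norm_num
      refine ⟨B, fun s h1 h2 F hF => ?_⟩
      have hF' : ∀ p ∈ F, p.Prime ∧ ¬ p ∣ N := fun p hp => ⟨(hF p hp).1, fun h =>
        (hF p hp).2 (Nat.mem_primeFactors.mpr ⟨(hF p hp).1, h, NeZero.ne N⟩)⟩
      refine le_trans (le_of_eq ?_) (hb s h1 h2 F hF')
      exact Finset.sum_congr rfl fun p hp => by rw [hgq p (hF' p hp).1 (hF' p hp).2]
  · show RC.toHomUnits (φ σ) = 1
    rw [((hdata p hp hpN).2 A hA).1 σ hσ, map_one]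
  · obtain ⟨ht, hd⟩ := ((hdata p hp hpN).2 A hA).2 σ hσ
    rw [hval, htr, hdet, ht, hd, he, (ha p hp hpN).1]
    exact ⟨rfl, rfl⟩

end FLTA.DeligneSerre
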