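import Fermat.Agent.DeligneSerre.Group.Diagonal
import Mathlib.LinearAlgebra.Dimension.Finite
import Mathlib.LinearAlgebra.Matrix.Basis
import Mathlib.LinearAlgebra.Matrix.IsDiag
import Mathlib.LinearAlgebra.Matrix.StdBasis
import Mathlib.LinearAlgebra.FiniteDimensional.Lemmas

/-!
Two by two matrices: powers and roots, unipotents of finite order, and the bound on a finite
semisimple group with few eigenvalues.
-/

set_option autoImplicit false

open Matrix Module

noncomputable section

namespace FLTA.DeligneSerre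

variable {K : Type*} [Field K]

theorem mul_self_two (M : Matrix (Fin 2) (Fin 2) K) :
    M * M = M.trace • M - M.det • (1 : Matrix (Fin 2) (Fin 2) K) := by
  ext i j
  fin_cases i <;> fin_cases j <;>
    simp [Matrix.mul_apply, Fin.sum_univ_two, Matrix.trace_fin_two, Matrix.det_fin_two] <;> ring

theorem trace_pow_eq {M : Matrix (Fin 2) (Fin 2) K} {u v : K} (h₁ : u + v = M.trace)
    (h₂ : u * v = M.det) : ∀ n : ℕ, (M ^ n).trace = u ^ n + v ^ n
  | 0 => by simp [one_add_one_eq_two]
  | 1 => by simp [h₁]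
  | n + 2 => by
      have e : M ^ (n + 2) = M.trace • M ^ (n + 1) - M.det • M ^ n := by
        rw [pow_add, pow_two, mul_self_two, mul_sub, Matrix.mul_smul, Matrix.mul_smul, mul_one,
          ← pow_succ]
      rw [e, Matrix.trace_sub, Matrix.trace_smul, Matrix.trace_smul, trace_pow_eq h₁ h₂ (n + 1),
        trace_pow_eq h₁ h₂ n, smul_eq_mul, smul_eq_mul, ← h₁, ← h₂]
      ring

theorem IsRootOf.pow {M : Matrix (Fin 2) (Fin 2) K} {μ : K} (h : IsRootOf M μ) (n : ℕ) :
    IsRootOf (M ^ n) (μ ^ n) := by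
  have h2 : (M ^ n).trace = μ ^ n + (M.trace - μ) ^ n :=
    trace_pow_eq (add_sub_cancel μ M.trace) h.mul_other n
  have h3 : (M ^ n).det = μ ^ n * (M.trace - μ) ^ n := by
    rw [Matrix.det_pow, ← mul_pow, h.mul_other]
  unfold IsRootOf
  rw [h2, h3]
  ring

theorem IsRootOf.eq_or {M : Matrix (Fin 2) (Fin 2) K} {μ ν : K} (h : IsRootOf M μ)
    (h' : IsRootOf M ν) : ν = μ ∨ ν = M.trace - μ := by
  have : (ν - μ) * (ν - (M.trace - μ)) = 0 := by
    unfold IsRootOf at *
    linear_combination h' - h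
  rcases mul_eq_zero.mp this with h1 | h1
  · exact Or.inl (sub_eq_zero.mp h1)
  · exact Or.inr (sub_eq_zero.mp h1)

/-- A matrix of order prime to the characteristic with trace `2` and determinant `1` is `1`. -/
theorem eq_one_of_trace_det {M : Matrix (Fin 2) (Fin 2) K} {m : ℕ} (hM : M ^ m = 1)
    (hm : (m : K) ≠ 0) (ht : M.trace = 2) (hd : M.det = 1) : M = 1 := by
  have hN : (M - 1) * (M - 1) = 0 := by
    rw [sub_mul, mul_sub, mul_sub, mul_self_two, ht, hd, two_smul]
    simp
    abel
  have key : ∀ n : ℕ, M ^ n = 1 + (n : K) • (M - 1) := by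
    intro n
    induction n with
    | zero => simp
    | succ n ih =>
      have hstep : (1 + (n : K) • (M - 1)) * (1 + (M - 1)) =
          1 + ((n + 1 : ℕ) : K) • (M - 1) := by
        rw [mul_add, mul_one, add_mul, one_mul, Matrix.smul_mul, hN, smul_zero, add_zero,
          Nat.cast_add, Nat.cast_one, add_smul, one_smul, add_assoc]
      rw [pow_succ, ih, ← hstep, add_sub_cancel]
  rw [key, add_eq_left, smul_eq_zero, sub_eq_zero] at hM
  exact hM.resolve_left hm

variable {G : Type*} [Group G]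

/-- No common eigenvector. -/
def NoCommonEigen (ρ : G →* Matrix (Fin 2) (Fin 2) K) : Prop :=
  ∀ v : Fin 2 → K, v ≠ 0 → ∃ g, ∀ c : K, ρ g *ᵥ v ≠ c • v

theorem eq_bot_or_top_of_invariant {ρ : G →* Matrix (Fin 2) (Fin 2) K} (hρ : NoCommonEigen ρ)
    (W : Submodule K (Fin 2 → K)) (hW : ∀ g, ∀ v ∈ W, ρ g *ᵥ v ∈ W) : W = ⊥ ∨ W = ⊤ := by
  rcases eq_or_ne W ⊥ with h | h
  · exact Or.inl h
  obtain ⟨v, hv, hv0⟩ := Submodule.exists_mem_ne_zero_of_ne_bot h
  obtain ⟨g, hg⟩ := hρ v hv0
  refine Or.inr ?_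
  have hli : LinearIndependent K ![v, ρ g *ᵥ v] := by
    rw [LinearIndependent.pair_iff' hv0]
    exact fun c hc => hg c hc.symm
  have hspan := hli.span_eq_top_of_card_eq_finrank (by simp)
  rw [eq_top_iff, ← hspan, Submodule.span_le]
  rintro x ⟨i, rfl⟩
  fin_cases i
  · exact hv
  · exact hW g v hv

/-- Burnside's theorem in dimension two. -/
theorem span_range_eq_top [IsAlgClosed K] {ρ : G →* Matrix (Fin 2) (Fin 2) K}
    (hρ : NoCommonEigen ρ) : Submodule.span K (Set.range ρ) = ⊤ := by
  set A := Submodule.span K (Set.range ρ)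
  have hA1 : (1 : Matrix (Fin 2) (Fin 2) K) ∈ A := Submodule.subset_span ⟨1, map_one ρ⟩
  have hAl : ∀ g, ∀ X ∈ A, ρ g * X ∈ A := by
    intro g X hX
    refine (Submodule.span_le.mpr ?_ : A ≤ A.comap (LinearMap.mulLeft K (ρ g))) hX
    rintro _ ⟨h, rfl⟩
    exact Submodule.subset_span ⟨g * h, map_mul ρ g h⟩
  have hAr : ∀ g, ∀ X ∈ A, X * ρ g ∈ A := by
    intro g X hX
    refine (Submodule.span_le.mpr ?_ : A ≤ A.comap (LinearMap.mulRight K (ρ g))) hX
    rintro _ ⟨h, rfl⟩
    exact Submodule.subset_span ⟨h * g, map_mul ρ h g⟩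
  -- a matrix of rank one in `A`
  obtain ⟨x, y, hx, hy, hxy⟩ : ∃ x y : Fin 2 → K, x ≠ 0 ∧ y ≠ 0 ∧ vecMulVec x y ∈ A := by
    obtain ⟨g, hg⟩ := hρ ![1, 0] (by simp)
    obtain ⟨μ, hμ⟩ := exists_isRootOf (ρ g)
    set R := ρ g - μ • (1 : Matrix (Fin 2) (Fin 2) K) with hR
    have hRA : R ∈ A :=
      Submodule.sub_mem _ (Submodule.subset_span ⟨g, rfl⟩) (Submodule.smul_mem _ _ hA1)
    have hdet : R 0 0 * R 1 1 - R 0 1 * R 1 0 = 0 := by
      rw [← Matrix.det_fin_two]; exact (det_sub_smul _ _).trans hμ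
    have hR0 : R ≠ 0 := by
      intro h
      refine hg μ ?_
      rw [sub_eq_zero.mp h]
      simp [Matrix.smul_mulVec]
    by_cases h0 : R 0 0 = 0 ∧ R 0 1 = 0
    · refine ⟨![0, 1], R 1, by simp, fun h => hR0 ?_, ?_⟩
      · ext i j; fin_cases i <;> fin_cases j <;> simp [h0.1, h0.2, congrFun h]
      · convert hRA using 1
        ext i j
        fin_cases i <;> fin_cases j <;> simp [vecMulVec_apply, h0.1, h0.2]
    · obtain ⟨t, ht0, ht1⟩ : ∃ t : K, R 1 0 = t * R 0 0 ∧ R 1 1 = t * R 0 1 := by
        by_cases h00 : R 0 0 = 0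
        · have h01 : R 0 1 ≠ 0 := fun h => h0 ⟨h00, h⟩
          refine ⟨R 1 1 / R 0 1, ?_, by field_simp⟩
          rw [h00, mul_zero]
          simpa [h00, h01] using hdet
        · refine ⟨R 1 0 / R 0 0, by field_simp, ?_⟩
          field_simp
          linear_combination hdet
      refine ⟨![1, t], R 0, by simp, fun h => h0 ⟨congrFun h 0, congrFun h 1⟩, ?_⟩
      convert hRA using 1
      ext i j
      fin_cases i <;> fin_cases j <;> simp [vecMulVec_apply, ht0, ht1]
  -- the left slot
  let Z : Submodule K (Fin 2 → K) :=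
    { carrier := {z | vecMulVec z y ∈ A}
      add_mem' := fun {a b} ha hb => by
        show vecMulVec (a + b) y ∈ A
        rw [add_vecMulVec]; exact A.add_mem ha hb
      zero_mem' := by
        show vecMulVec 0 y ∈ A
        rw [zero_vecMulVec]; exact A.zero_mem
      smul_mem' := fun c a ha => by
        show vecMulVec (c • a) y ∈ A
        rw [smul_vecMulVec]; exact A.smul_mem c ha }
  have hZ : Z = ⊤ := by
    refine (eq_bot_or_top_of_invariant hρ Z fun g z hz => ?_).resolve_left fun h => hx ?_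
    · show vecMulVec (ρ g *ᵥ z) y ∈ A
      rw [← mul_vecMulVec]; exact hAl g _ hz
    · have : x ∈ Z := hxy
      rw [h] at this
      exact this
  -- the right slot
  have hW : ∀ z w : Fin 2 → K, vecMulVec z w ∈ A := by
    obtain ⟨g, hg⟩ := hρ ![-(y 1), y 0] (by
      intro h
      apply hy
      ext i
      fin_cases i
      · simpa using congrFun h 1
      · simpa using congrFun h 0)
    have hli : LinearIndependent K ![y, y ᵥ* ρ g] := by
      rw [LinearIndependent.pair_iff' hy]
      intro c hc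
      have e : y ⬝ᵥ (ρ g *ᵥ ![-(y 1), y 0]) = 0 := by
        rw [Matrix.dotProduct_mulVec, ← hc]
        simp [dotProduct, Fin.sum_univ_two]
        ring
      simp only [dotProduct, Fin.sum_univ_two] at e
      -- a vector orthogonal to `y` is a multiple of `(-y 1, y 0)`
      by_cases hy0 : y 0 = 0
      · have hy1 : y 1 ≠ 0 := fun h1 => hy (by ext i; fin_cases i <;> simp [hy0, h1])
        refine hg (-((ρ g *ᵥ ![-(y 1), y 0]) 0 / y 1)) ?_
        ext i
        fin_cases i
        · simp only [Fin.zero_eta, Pi.smul_apply, Matrix.cons_val_zero, smul_eq_mul]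
          field_simp
        · simp only [Fin.mk_one, Pi.smul_apply, Matrix.cons_val_one, Matrix.cons_val_fin_one,
            smul_eq_mul, hy0, mul_zero]
          rw [hy0, zero_mul, zero_add, mul_eq_zero] at e
          simpa [hy0] using e.resolve_left hy1
      · refine hg ((ρ g *ᵥ ![-(y 1), y 0]) 1 / y 0) ?_
        ext i
        fin_cases i
        · simp only [Fin.zero_eta, Pi.smul_apply, Matrix.cons_val_zero, smul_eq_mul]
          field_simp
          linear_combination e
        · simp only [Fin.mk_one, Pi.smul_apply, Matrix.cons_val_one, Matrix.cons_val_fin_one,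
            smul_eq_mul]
          field_simp
    have hspan := hli.span_eq_top_of_card_eq_finrank (by simp)
    intro z w
    have hw : w ∈ Submodule.span K (Set.range ![y, y ᵥ* ρ g]) := by rw [hspan]; trivial
    have hzy : vecMulVec z y ∈ A := by
      have : z ∈ Z := by rw [hZ]; trivial
      exact this
    induction hw using Submodule.span_induction with
    | mem a ha =>
      obtain ⟨i, rfl⟩ := ha
      fin_cases i
      · exact hzy
      · show vecMulVec z (y ᵥ* ρ g) ∈ A
        rw [← vecMulVec_mul]; exact hAr g _ hzy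
    | zero => rw [vecMulVec_zero]; exact A.zero_mem
    | add a b _ _ ha hb => rw [vecMulVec_add]; exact A.add_mem ha hb
    | smul c a _ ha => rw [vecMulVec_smul]; exact A.smul_mem c ha
  rw [eq_top_iff]
  intro X _
  have e : X = vecMulVec ![1, 0] (X 0) + vecMulVec ![0, 1] (X 1) := by
    ext i j
    rw [Matrix.add_apply, vecMulVec_apply, vecMulVec_apply]
    fin_cases i <;> simp
  rw [e]
  exact A.add_mem (hW _ _) (hW _ _)

/-- A finite group of matrices without common eigenvector, with traces in `T`. -/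
theorem card_le_of_noCommonEigen [IsAlgClosed K] [Fintype G]
    {ρ : G →* Matrix (Fin 2) (Fin 2) K} (hinj : Function.Injective ρ) (hρ : NoCommonEigen ρ)
    (T : Finset K) (hT : ∀ g, (ρ g).trace ∈ T) :
    Fintype.card G ≤ T.card ^ 4 := by
  classical
  obtain ⟨b, hbsub, hbspan, hbli⟩ := exists_linearIndependent K (Set.range ρ)
  have : Fintype b := Set.Finite.fintype ((Set.finite_range ρ).subset hbsub)
  have hcard : Fintype.card b ≤ 4 := by
    simpa [Module.finrank_matrix] using hbli.fintype_card_le_finrank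
  let Φ : G → (b → T) := fun g X =>
    ⟨(ρ g * X.1).trace, by
      obtain ⟨h, hh⟩ := hbsub X.2
      rw [← hh, ← map_mul]
      exact hT _⟩
  have hΦ : Function.Injective Φ := by
    intro g h hgh
    apply hinj
    have key : ∀ X : Matrix (Fin 2) (Fin 2) K, ((ρ g - ρ h) * X).trace = 0 := by
      intro X
      have hX : X ∈ Submodule.span K b := by rw [hbspan, span_range_eq_top hρ]; trivial
      induction hX using Submodule.span_induction with
      | mem Y hY =>
        rw [sub_mul, Matrix.trace_sub, sub_eq_zero]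
        exact congrArg Subtype.val (congrFun hgh ⟨Y, hY⟩)
      | zero => simp
      | add Y Z _ _ hY hZ => rw [mul_add, Matrix.trace_add, hY, hZ, add_zero]
      | smul c Y _ hY => rw [Matrix.mul_smul, Matrix.trace_smul, hY, smul_zero]
    rw [← sub_eq_zero]
    ext i j
    simpa [Matrix.trace_mul_single] using key (Matrix.single j i 1)
  have h := Fintype.card_le_of_injective Φ hΦ
  rw [Fintype.card_fun, Fintype.card_coe] at h
  refine h.trans (Nat.pow_le_pow_right ?_ hcard)
  exact Finset.card_pos.mpr ⟨_, hT 1⟩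

/-- A finite group of matrices which are simultaneously diagonalisable, eigenvalues in `U`. -/
theorem card_le_of_diagonal [Fintype G] {ρ : G →* Matrix (Fin 2) (Fin 2) K}
    (hinj : Function.Injective ρ) {P Q : Matrix (Fin 2) (Fin 2) K} (hPQ : P * Q = 1)
    (hd : ∀ g, (Q * ρ g * P).IsDiag) (U : Finset K)
    (hU : ∀ g μ, IsRootOf (ρ g) μ → μ ∈ U) : Fintype.card G ≤ U.card * U.card := by
  classical
  have hroot : ∀ g i, IsRootOf (ρ g) ((Q * ρ g * P) i i) := by
    intro g i
    unfold IsRootOf
    rw [← trace_conj (M := ρ g) hPQ, ← det_conj (M := ρ g) hPQ, Matrix.det_fin_two,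
      Matrix.trace_fin_two, hd g (show (0 : Fin 2) ≠ 1 by decide),
      hd g (show (1 : Fin 2) ≠ 0 by decide)]
    fin_cases i <;> simp <;> ring
  let Φ : G → U × U := fun g => (⟨_, hU g _ (hroot g 0)⟩, ⟨_, hU g _ (hroot g 1)⟩)
  have hΦ : Function.Injective Φ := by
    intro g h hgh
    apply hinj
    have h0 := congrArg (fun p : U × U => (p.1 : K)) hgh
    have h1 := congrArg (fun p : U × U => (p.2 : K)) hgh
    have e : Q * ρ g * P = Q * ρ h * P := by
      ext i j
      fin_cases i <;> fin_cases j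
      · exact h0
      · exact (hd g (show (0 : Fin 2) ≠ 1 by decide)).trans (hd h (show (0 : Fin 2) ≠ 1 by decide)).symm
      · exact (hd g (show (1 : Fin 2) ≠ 0 by decide)).trans (hd h (show (1 : Fin 2) ≠ 0 by decide)).symm
      · exact h1
    calc ρ g = P * (Q * ρ g * P) * Q := by
          simp only [← Matrix.mul_assoc, hPQ, Matrix.one_mul]; rw [Matrix.mul_assoc, hPQ, Matrix.mul_one]
      _ = P * (Q * ρ h * P) * Q := by rw [e]
      _ = ρ h := by
          simp only [← Matrix.mul_assoc, hPQ, Matrix.one_mul]; rw [Matrix.mul_assoc, hPQ, Matrix.mul_one]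
  simpa using Fintype.card_le_of_injective Φ hΦ

/-- A common eigenvector makes the trace a sum of two characters. -/
theorem exists_two_characters [Finite G] {ρ : G →* Matrix (Fin 2) (Fin 2) K}
    (h : ¬ NoCommonEigen ρ) :
    ∃ χ₁ χ₂ : G →* K, ∀ g, (ρ g).trace = χ₁ g + χ₂ g := by
  unfold NoCommonEigen at h
  push Not at h
  obtain ⟨v, hv, hc⟩ := h
  choose c hc using hc
  have huniq : ∀ a b : K, a • v = b • v → a = b := fun a b e => smul_left_injective K hv e
  let χ₁ : G →* K :=
    { toFun := c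
      map_one' := huniq _ _ (by rw [← hc, map_one, Matrix.one_mulVec, one_smul])
      map_mul' := fun a b => huniq _ _ (by
        rw [← hc, map_mul, ← Matrix.mulVec_mulVec, hc, Matrix.mulVec_smul, hc, smul_smul,
          mul_comm]) }
  let χ₂ : G →* K :=
    { toFun := fun g => (ρ g).det * χ₁ g⁻¹
      map_one' := by simp
      map_mul' := fun a b => by simp only [map_mul, Matrix.det_mul, _root_.mul_inv_rev]; ring }
  refine ⟨χ₁, χ₂, fun g => ?_⟩
  have hr : IsRootOf (ρ g) (c g) := by
    rw [IsRootOf, ← det_sub_smul]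
    refine Matrix.exists_mulVec_eq_zero_iff.mp ⟨v, hv, ?_⟩
    rw [Matrix.sub_mulVec, hc, Matrix.smul_mulVec, Matrix.one_mulVec, sub_self]
  have h1 : χ₁ g * χ₁ g⁻¹ = 1 := by rw [← map_mul, mul_inv_cancel, map_one]
  show (ρ g).trace = c g + (ρ g).det * χ₁ g⁻¹
  rw [← hr.mul_other, mul_comm (c g), mul_assoc,
    show c g * χ₁ g⁻¹ = 1 from h1, mul_one, add_sub_cancel]

end FLTA.DeligneSerre
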