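import Mathlib.Data.Nat.Totient
import Mathlib.NumberTheory.SumPrimeReciprocals
import Mathlib.Analysis.SpecialFunctions.Exp

/-!
Moduli `Q`, not prime powers, with `φ Q / Q` as small as we like.
-/

set_option autoImplicit false

noncomputable section

namespace FLTA.DeligneSerre

theorem totient_mul_le_mul_totient {Q e : ℕ} (h : Q ∣ e) :
    Nat.totient e * Q ≤ e * Nat.totient Q := by
  obtain ⟨c, rfl⟩ := h
  suffices H : Nat.totient (Q * c) ≤ Nat.totient Q * c by
    calc Nat.totient (Q * c) * Q ≤ Nat.totient Q * c * Q := Nat.mul_le_mul_right _ H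
      _ = _ := by ring
  induction c using Nat.recOnMul generalizing Q with
  | zero => simp
  | one => simp
  | prime p hp =>
    by_cases hd : p ∣ Q
    · rw [mul_comm Q p, Nat.totient_mul_of_prime_of_dvd hp hd, mul_comm]
    · rw [Nat.totient_mul ((hp.coprime_iff_not_dvd.mpr hd).symm), Nat.totient_prime hp]
      exact Nat.mul_le_mul_left _ (Nat.sub_le p 1)
  | mul a b iha ihb =>
    rw [← mul_assoc]
    refine ihb.trans ?_
    rw [← mul_assoc]
    exact Nat.mul_le_mul_right b iha

theorem exists_not_primePow_totient_le {δ : ℝ} (hδ : 0 < δ) :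
    ∃ Q : ℕ, 1 < Q ∧ (∀ {p : ℕ}, p.Prime → ∀ k : ℕ, p ^ k ≠ Q) ∧
      (Nat.totient Q : ℝ) ≤ δ * Q := by
  classical
  have hnn : ∀ n, 0 ≤ ({p : ℕ | p.Prime}.indicator (fun n => (1 : ℝ) / n)) n :=
    fun n => Set.indicator_nonneg (fun i _ => by positivity) n
  have h := (not_summable_iff_tendsto_nat_atTop_of_nonneg hnn).mp not_summable_one_div_on_primes
  obtain ⟨n, hn4, hn⟩ := ((Filter.eventually_ge_atTop 4).and
    (h.eventually (Filter.eventually_ge_atTop (-Real.log δ)))).exists
  set P := (Finset.range n).filter Nat.Prime with hP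
  set Q := ∏ p ∈ P, p with hQ
  have hprime : ∀ p ∈ P, p.Prime := fun p hp => (Finset.mem_filter.mp hp).2
  have h2 : 2 ∈ P := Finset.mem_filter.mpr ⟨Finset.mem_range.mpr (by omega), Nat.prime_two⟩
  have h3 : 3 ∈ P := Finset.mem_filter.mpr ⟨Finset.mem_range.mpr (by omega), Nat.prime_three⟩
  have hQ0 : 0 < Q := Finset.prod_pos fun p hp => (hprime p hp).pos
  have hd2 : 2 ∣ Q := Finset.dvd_prod_of_mem _ h2
  have hd3 : 3 ∣ Q := Finset.dvd_prod_of_mem _ h3
  refine ⟨Q, by have := Nat.le_of_dvd hQ0 hd3; omega, fun {p} hp k hpk => ?_, ?_⟩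
  · rw [← hpk] at hd2 hd3
    have e2 := (Nat.prime_dvd_prime_iff_eq Nat.prime_two hp).mp (Nat.prime_two.dvd_of_dvd_pow hd2)
    have e3 := (Nat.prime_dvd_prime_iff_eq Nat.prime_three hp).mp
      (Nat.prime_three.dvd_of_dvd_pow hd3)
    omega
  · have hfac : Q.primeFactors = P := Nat.primeFactors_prod hprime
    have ht := Nat.totient_eq_mul_prod_factors Q
    rw [hfac] at ht
    have ht' : (Nat.totient Q : ℝ) = Q * ∏ p ∈ P, (1 - ((p : ℝ))⁻¹) := by
      have := congrArg (Rat.cast : ℚ → ℝ) ht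
      push_cast at this
      exact this
    rw [ht', mul_comm δ]
    refine mul_le_mul_of_nonneg_left ?_ (Nat.cast_nonneg _)
    calc ∏ p ∈ P, (1 - ((p : ℝ))⁻¹) ≤ ∏ p ∈ P, Real.exp (-((p : ℝ))⁻¹) := by
          refine Finset.prod_le_prod (fun p hp => sub_nonneg.mpr (inv_le_one_of_one_le₀
            (by exact_mod_cast (hprime p hp).one_lt.le))) fun p _ => ?_
          have := Real.add_one_le_exp (-((p : ℝ))⁻¹)
          linarith
      _ = Real.exp (-∑ i ∈ Finset.range n, {p : ℕ | p.Prime}.indicator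
            (fun n => (1 : ℝ) / n) i) := by
          rw [← Real.exp_sum, ← Finset.sum_neg_distrib, hP, Finset.sum_filter]
          congr 1
          refine Finset.sum_congr rfl fun i _ => ?_
          by_cases hi : i.Prime <;> simp [hi]
      _ ≤ Real.exp (Real.log δ) := Real.exp_le_exp.mpr (by linarith)
      _ = δ := Real.exp_log hδ

end FLTA.DeligneSerre
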