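import Fermat.Agent.DeligneSerre.Finite.Residue
import Fermat.Agent.DeligneSerre.Finite.Matrix2
import Fermat.Agent.DeligneSerre.Finite.Primorial
import Fermat.Agent.DeligneSerre.Group.Count
import Fermat.Agent.DeligneSerre.OrderPlace

/-!
Uniform bound for the images of the mod `A` representations.
-/

set_option autoImplicit false

noncomputable section

open IsLocalRing Subgroup
open scoped Classical

namespace FLTA.DeligneSerre

local notation "Qb" => AlgebraicClosure ℚ
local notation "Γℚ" => (Qb ≃ₐ[ℚ] Qb)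
local notation "ℤb" => integralClosure ℤ Qb

theorem noCommonEigen_of_isIrreducible {Γ k : Type} [Group Γ] [Field k] {ρ : Γ →* GL (Fin 2) k}
    (h : (Deformation.matrixRepresentation ρ).IsIrreducible) : NoCommonEigen (matHom ρ) := by
  intro v hv
  by_contra hcon
  push Not at hcon
  let W : Subrepresentation (Deformation.matrixRepresentation ρ) :=
    { toSubmodule := Submodule.span k {v}
      apply_mem_toSubmodule := fun g w hw => by
        obtain ⟨c, rfl⟩ := Submodule.mem_span_singleton.mp hw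
        obtain ⟨d, hd⟩ := hcon g
        rw [map_smul]
        refine Submodule.smul_mem _ _ (Submodule.mem_span_singleton.mpr ⟨d, ?_⟩)
        rw [Deformation.matrixRepresentation_apply, Matrix.mulVecLin_apply]
        exact hd.symm }
  rcases IsSimpleOrder.eq_bot_or_eq_top W with h1 | h1
  · have h2 := congrArg Subrepresentation.toSubmodule h1
    exact hv ((Submodule.span_singleton_eq_bot).mp h2)
  · have h2 : Submodule.span k {v} = ⊤ := congrArg Subrepresentation.toSubmodule h1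
    have h3 := finrank_span_singleton (K := k) hv
    rw [h2, finrank_top] at h3
    simp at h3

theorem isIrreducible_of_noCommonEigen {Γ k : Type} [Group Γ] [Field k] {ρ : Γ →* GL (Fin 2) k}
    (h : NoCommonEigen (matHom ρ)) : (Deformation.matrixRepresentation ρ).IsIrreducible := by
  have : Nontrivial (Subrepresentation (Deformation.matrixRepresentation ρ)) := by
    refine ⟨⟨⟨⊥, fun g v hv => ?_⟩, ⟨⊤, fun _ _ _ => trivial⟩, fun e => ?_⟩⟩
    · rw [Submodule.mem_bot] at hv ⊢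
      rw [hv, map_zero]
    · exact bot_ne_top (congrArg Subrepresentation.toSubmodule e)
  refine ⟨fun W => ?_⟩
  rcases eq_bot_or_top_of_invariant h W.toSubmodule (fun g v hv => by
    simpa using W.apply_mem_toSubmodule g hv) with h1 | h1
  · exact Or.inl (Subrepresentation.toSubmodule_injective h1)
  · exact Or.inr (Subrepresentation.toSubmodule_injective h1)

section Group

variable {k : Type} [Field k] {G : Type} [Group G] (ρ : G →* Matrix (Fin 2) (Fin 2) k)

theorem trace_det_conj (g x : G) :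
    (ρ (x⁻¹ * g * x)).trace = (ρ g).trace ∧ (ρ (x⁻¹ * g * x)).det = (ρ g).det := by
  have hPQ : ρ x * ρ x⁻¹ = 1 := by rw [← map_mul, mul_inv_cancel, map_one]
  rw [map_mul, map_mul]
  exact ⟨trace_conj hPQ, det_conj hPQ⟩

theorem root_pow_orderOf {g : G} {μ : k} (hμ : IsRootOf (ρ g) μ) : μ ^ orderOf g = 1 := by
  have h := hμ.pow (orderOf g)
  rw [← map_pow, pow_orderOf_eq_one, map_one] at h
  have h2 : (μ ^ orderOf g - 1) * (μ ^ orderOf g - 1) = 0 := by
    rw [IsRootOf, Matrix.trace_one, Matrix.det_one] at h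
    simp only [Fintype.card_fin, Nat.cast_ofNat] at h
    linear_combination h
  exact sub_eq_zero.mp (mul_self_eq_zero.mp h2)

/-- An eigenvalue of order `e` and a determinant killed by `B` are kept under change of
generator. -/
theorem root_order_of_zpowers_eq [Finite G] {g h : G} (hgh : zpowers g = zpowers h) {B e : ℕ}
    (hg : (ρ g).det ^ B = 1 ∧ ∃ μ, IsRootOf (ρ g) μ ∧ orderOf μ = e) :
    (ρ h).det ^ B = 1 ∧ ∃ μ, IsRootOf (ρ h) μ ∧ orderOf μ = e := by
  obtain ⟨hdet, μ, hμ, hord⟩ := hg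
  obtain ⟨i, hi⟩ := (isOfFinOrder_of_finite g).mem_powers_iff_mem_zpowers.mpr
    (hgh ▸ mem_zpowers h)
  obtain ⟨j, hj⟩ := (isOfFinOrder_of_finite h).mem_powers_iff_mem_zpowers.mpr
    (hgh ▸ mem_zpowers g)
  simp only at hi hj
  have hμj : μ ^ (i * j) = μ := by
    have h1 : g ^ (i * j) = g ^ 1 := by rw [pow_mul, hi, hj, pow_one]
    have h2 := pow_eq_pow_iff_modEq.mp h1
    have h3 : μ ^ (i * j) = μ ^ 1 :=
      (isOfFinOrder_iff_pow_eq_one.mpr ⟨orderOf g, orderOf_pos g, root_pow_orderOf ρ hμ⟩).pow_eq_pow_iff_modEq.mpr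
        (h2.of_dvd (orderOf_dvd_of_pow_eq_one (root_pow_orderOf ρ hμ)))
    rw [h3, pow_one]
  rw [← hi, map_pow]
  refine ⟨by rw [Matrix.det_pow, ← pow_mul, mul_comm, pow_mul, hdet, one_pow],
    μ ^ i, hμ.pow i, Nat.dvd_antisymm ?_ ?_⟩
  · rw [← hord]; exact orderOf_pow_dvd i
  · rw [← hord]
    refine orderOf_dvd_of_pow_eq_one ?_
    calc μ ^ orderOf (μ ^ i) = ((μ ^ i) ^ j) ^ orderOf (μ ^ i) := by rw [← pow_mul μ i j, hμj]
      _ = ((μ ^ i) ^ orderOf (μ ^ i)) ^ j := pow_right_comm _ _ _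
      _ = 1 := by rw [pow_orderOf_eq_one, one_pow]

end Group

variable {N : ℕ} [NeZero N] {a : ℕ → Qb} {e : DirichletCharacter Qb N} {S : Finset ℕ}
  {K : IntermediateField ℚ Qb} [FiniteDimensional ℚ K]

variable (hint : ∀ p : ℕ, p.Prime → ¬ p ∣ N → IsIntegral ℤ (a p) ∧ a p ∈ K)
  (hmass : ∀ σ : Γℚ, ∃ A B : ℝ, 0 ≤ A ∧ ∀ s : ℝ, 1 < s → s ≤ 2 → ∀ P : Finset ℕ,
    (∀ p ∈ P, p.Prime ∧ ¬ p ∣ N) →
      ∑ p ∈ P, ‖iota (σ (a p))‖ ^ 2 * (p : ℝ) ^ (-s) ≤ A * (-Real.log (s - 1)) + B)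
  (hrep : ∀ l : ℕ, l.Prime → l ∉ S → ∀ A : ValuationSubring Qb, A.LiesOverPrime l →
    ∃ ρ, IsModRep N a e A l ρ)

omit [FiniteDimensional ℚ K] in
/-- Every embedding of `K` in `ℂ` is `iota ∘ σ`. -/
theorem exists_iota_comp_eq [FiniteDimensional ℚ K] (φ : K →+* ℂ) :
    ∃ σ : Γℚ, ∀ x : K, φ x = iota (σ x) := by
  haveI : IsAlgClosure ℚ Qb := ⟨inferInstance, AlgebraicClosure.isAlgebraic ℚ⟩
  haveI : Normal ℚ Qb := IsAlgClosure.normal ℚ Qb
  let j : (K →ₐ[ℚ] Qb) → (K →ₐ[ℚ] ℂ) := fun ψ => (iota.toRatAlgHom).comp ψ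
  have hj : Function.Injective j := fun ψ ψ' h => AlgHom.ext fun x =>
    iota.injective (AlgHom.congr_fun h x)
  have hbij : Function.Bijective j := (Fintype.bijective_iff_injective_and_card j).mpr
    ⟨hj, by rw [AlgHom.card, AlgHom.card]⟩
  obtain ⟨ψ, hψ⟩ := hbij.2 φ.toRatAlgHom
  refine ⟨AlgHom.restrictNormal' (ψ.liftNormal Qb) Qb, fun x => ?_⟩
  have h1 := AlgHom.congr_fun hψ x
  have h3 := AlgHom.liftNormal_commutes ψ Qb x
  have h4 := AlgHom.restrictNormal_commutes (ψ.liftNormal Qb) Qb (x : Qb)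
  simp only [Algebra.algebraMap_self_apply] at h4
  refine h1.symm.trans ?_
  show iota (ψ x) = iota _
  refine congrArg iota ?_
  have h5 : (AlgHom.restrictNormal' (ψ.liftNormal Qb) Qb) (x : Qb) = (ψ.liftNormal Qb) (x : Qb) :=
    h4
  rw [h5]
  exact h3.symm

include hrep in
/-- An eigenvalue pair with a root of infinite order has small mass. -/
theorem hasMassLE_of_infinite_order (y d u : Qb) (hu : u ^ 2 - y * u + d = 0)
    (hord : ∀ n : ℕ, 0 < n → u ^ n ≠ 1)
    (hint' : ∀ p : ℕ, p.Prime → ¬ p ∣ N → IsIntegral ℤ (a p)) {η : ℝ} (hη : 0 < η) :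
    HasMassLE (fun p => ¬ p ∣ N ∧ a p = y ∧ e (p : ZMod N) = d) η := by
  by_cases hex : ∃ p : ℕ, p.Prime ∧ ¬ p ∣ N ∧ a p = y ∧ e (p : ZMod N) = d
  swap
  · refine ⟨0, ?_⟩
    filter_upwards [eventually_mem_Ioc] with s hs F hF
    have : F = ∅ := Finset.eq_empty_of_forall_notMem fun p hp =>
      hex ⟨p, (hF p hp).1, (hF p hp).2⟩
    have hlog : 0 ≤ -Real.log (s - 1) := by
      linarith [Real.log_nonpos (by linarith : 0 ≤ s - 1) (by linarith)]
    simp [this]
    nlinarith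
  obtain ⟨p₀, hp₀, hpN₀, hy₀, hd₀⟩ := hex
  obtain ⟨r, r', hsum, hprod, -⟩ :=
    exists_roots_frobenius (N := N) (a := a) (e := e) hp₀ hpN₀ (hint' p₀ hp₀ hpN₀)
  rw [hy₀] at hsum
  rw [hd₀] at hprod
  have hdpow : d ^ N.totient = 1 := hd₀ ▸ value_pow_totient N e hp₀ hpN₀
  have htot : 0 < N.totient := Nat.totient_pos.mpr (NeZero.pos N)
  have hd0 : d ≠ 0 := by
    intro h
    rw [h, zero_pow htot.ne'] at hdpow
    exact zero_ne_one hdpow
  have hdint : IsIntegral ℤ d := IsIntegral.of_pow htot (by rw [hdpow]; exact isIntegral_one)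
  -- `u` is one of `r`, `r'`, hence an integral unit
  have huv : u * (y - u) = d := by linear_combination -hu
  have huint : IsIntegral ℤ u := by
    have h : (u - r) * (u - r') = 0 := by rw [← hsum, ← hprod] at hu; linear_combination hu
    rcases mul_eq_zero.mp h with h | h
    · rw [sub_eq_zero.mp h]; exact r.2
    · rw [sub_eq_zero.mp h]; exact r'.2
  have hu0 : u ≠ 0 := fun h => hd0 (by rw [← huv, h, zero_mul])
  have hyint : IsIntegral ℤ y := hy₀ ▸ hint' p₀ hp₀ hpN₀
  have hinv : IsIntegral ℤ u⁻¹ := by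
    have e1 : u * ((y - u) * d ^ (N.totient - 1)) = 1 := by
      rw [← mul_assoc, huv, ← pow_succ', Nat.sub_add_cancel htot, hdpow]
    rw [inv_eq_of_mul_eq_one_right e1]
    exact (hyint.sub huint).mul (hdint.pow _)
  obtain ⟨Q, hQ1, hQpp, hQ⟩ :=
    exists_not_primePow_totient_le (δ := η / (4 * N.totient)) (by positivity)
  obtain ⟨l, hl, hlE, A, hA, hdvd⟩ :=
    exists_place_dvd_orderOf u huint hinv hu0 hord (S ∪ N.primeFactors) Q hQpp (by omega)
  rw [Finset.mem_union, not_or] at hlE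
  obtain ⟨ρ, hρ⟩ := hrep l hl hlE.1 A hA
  haveI : Fintype ρ.range := (finite_range_of_factors ρ hρ.1).fintype
  set ρM := matHom (ρ.range.subtype) with hρM
  have hinj : Function.Injective ρM := fun x y h => Subtype.ext (Units.ext h)
  set e₀ := orderOf (redPlace A ⟨u, huint⟩) with he₀
  have hdvd' : Q ∣ e₀ := hdvd
  set C : Finset ρ.range := Finset.univ.filter fun g =>
    (ρM g).det ^ N.totient = 1 ∧ ∃ μ, IsRootOf (ρM g) μ ∧ orderOf μ = e₀ with hC
  have hmem : ∀ g, g ∈ C ↔ (ρM g).det ^ N.totient = 1 ∧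
      ∃ μ, IsRootOf (ρM g) μ ∧ orderOf μ = e₀ := fun g => by simp [hC]
  have key := hasMassLE_of_mem (factorsThrough_rangeRestrict hρ.1) ρ.rangeRestrict_surjective C
    (fun g x hg => by
      rw [hmem] at hg ⊢
      obtain ⟨ht, hd⟩ := trace_det_conj ρM g x
      rw [hd]
      refine ⟨hg.1, ?_⟩
      obtain ⟨μ, hμ, ho⟩ := hg.2
      exact ⟨μ, by rw [IsRootOf, ht, hd]; exact hμ, ho⟩)
    (fun g h hgh hg => (hmem h).mpr (root_order_of_zpowers_eq ρM hgh ((hmem g).mp hg)))
    (insert l N.primeFactors) (fun p => ¬ p ∣ N ∧ a p = y ∧ e (p : ZMod N) = d) ?_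
  · refine key.mono_const ?_
    rcases C.eq_empty_or_nonempty with hC0 | ⟨g, hg⟩
    · simp [hC0, hη.le]
    obtain ⟨-, μ, hμ, hμord⟩ := (hmem g).mp hg
    have he0 : 0 < e₀ := by
      rw [← hμord, orderOf_pos_iff]
      exact isOfFinOrder_iff_pow_eq_one.mpr ⟨orderOf g, orderOf_pos g, root_pow_orderOf ρM hμ⟩
    have h1 := card_orderOf_root_le ρM hinj e₀ N.totient htot C fun x hx => (hmem x).mp hx
    have h2 := totient_mul_le_mul_totient hdvd'
    have hphi : (1 : ℝ) ≤ Nat.totient Q := by exact_mod_cast Nat.totient_pos.mpr (by omega)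
    have hG : (0 : ℝ) < Fintype.card ρ.range := by exact_mod_cast Fintype.card_pos
    have hn0 : (0 : ℝ) < N.totient := by exact_mod_cast htot
    have hQ' : (Nat.totient Q : ℝ) * (4 * N.totient) ≤ η * Q := by
      rw [div_mul_eq_mul_div, le_div_iff₀ (by positivity)] at hQ
      exact hQ
    rw [div_le_iff₀ hG]
    -- `|C| e₀ ≤ 4 B |G| φ(e₀)`
    have hCG : C.card ≤ Fintype.card ρ.range := Finset.card_le_univ C
    have h3 : C.card * e₀ ≤ 4 * N.totient * Fintype.card ρ.range * Nat.totient e₀ := by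
      rcases le_or_gt (4 * N.totient) e₀ with hb | hb
      · calc C.card * e₀ ≤ C.card * (2 * (e₀ - 2 * N.totient)) :=
              Nat.mul_le_mul_left _ (by omega)
          _ = 2 * (C.card * (e₀ - 2 * N.totient)) := by ring
          _ ≤ 2 * (Fintype.card ρ.range * (2 * N.totient * Nat.totient e₀)) := by gcongr
          _ = _ := by ring
      · have : 1 ≤ Nat.totient e₀ := Nat.totient_pos.mpr he0
        calc C.card * e₀ ≤ Fintype.card ρ.range * (4 * N.totient) := Nat.mul_le_mul hCG hb.le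
          _ ≤ Fintype.card ρ.range * (4 * N.totient) * Nat.totient e₀ :=
              Nat.le_mul_of_pos_right _ this
          _ = _ := by ring
    have h4 : C.card * Q ≤ 4 * N.totient * Fintype.card ρ.range * Nat.totient Q := by
      refine Nat.le_of_mul_le_mul_left ?_ he0
      calc e₀ * (C.card * Q) = C.card * e₀ * Q := by ring
        _ ≤ 4 * N.totient * Fintype.card ρ.range * Nat.totient e₀ * Q := by gcongr
        _ = 4 * N.totient * Fintype.card ρ.range * (Nat.totient e₀ * Q) := by ring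
        _ ≤ 4 * N.totient * Fintype.card ρ.range * (e₀ * Nat.totient Q) := by gcongr
        _ = _ := by ring
    have h4' : (C.card : ℝ) * Q ≤ 4 * N.totient * Fintype.card ρ.range * Nat.totient Q := by
      exact_mod_cast h4
    have hQpos : (0 : ℝ) < Q := by exact_mod_cast (by omega : 0 < Q)
    refine le_of_mul_le_mul_right (h4'.trans ?_) hQpos
    nlinarith
  · intro p hp hpS hP B hB τ hτ
    rw [Finset.mem_insert, not_or] at hpS
    obtain ⟨r₁, r₂, hs, hpr, hred⟩ :=
      exists_roots_frobenius (N := N) (a := a) (e := e) hp hP.1 (hint' p hp hP.1)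
    rw [hP.2.1] at hs
    rw [hP.2.2] at hpr
    obtain ⟨hs', hp'⟩ := hred hρ hpS.1 B hB τ hτ
    rw [hmem]
    refine ⟨det_pow_totient hρ τ, redPlace A ⟨u, huint⟩, ?_, rfl⟩
    have h : (u - r₁) * (u - r₂) = 0 := by rw [← hs, ← hpr] at hu; linear_combination hu
    show IsRootOf (matHom ρ τ) _
    rcases mul_eq_zero.mp h with h | h
    · have : (⟨u, huint⟩ : ℤb) = r₁ := Subtype.ext (sub_eq_zero.mp h)
      rw [this]; exact (isRootOf_of_sum_prod hs' hp').1
    · have : (⟨u, huint⟩ : ℤb) = r₂ := Subtype.ext (sub_eq_zero.mp h)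
      rw [this]; exact (isRootOf_of_sum_prod (by rwa [add_comm]) (by rwa [mul_comm])).1

include hint hmass hrep in
/-- Away from a set of primes of small mass, the roots of `X² - a p X + e p` are roots of unity of
bounded order. -/
theorem exists_good_primes :
    ∃ n₀ : ℕ, 0 < n₀ ∧ ∃ Bad : ℕ → Prop, HasMassLE Bad (1 / 4) ∧
      ∀ p : ℕ, p.Prime → ¬ p ∣ N → ¬ Bad p → ∀ u v : Qb,
        u + v = a p → u * v = e (p : ZMod N) → u ^ n₀ = 1 ∧ v ^ n₀ = 1 := by
  haveI : NumberField K :=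
    { to_charZero := inferInstance, to_finiteDimensional := inferInstance }
  set x : ℕ → K := fun p => if h : a p ∈ K then ⟨a p, h⟩ else 0 with hx
  have hxp : ∀ p : ℕ, p.Prime → p ∉ N.primeFactors → ¬ p ∣ N ∧ (x p : Qb) = a p := by
    intro p hp hpS
    have hpN : ¬ p ∣ N := fun h => hpS (Nat.mem_primeFactors.mpr ⟨hp, h, NeZero.ne N⟩)
    exact ⟨hpN, by simp [hx, (hint p hp hpN).2]⟩
  obtain ⟨Y, hY⟩ := exists_finite_hasMassLE K x N.primeFactors
    (fun p hp hpS => by
      obtain ⟨hpN, he⟩ := hxp p hp hpS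
      have h := (hint p hp hpN).1
      rw [← he] at h
      exact (isIntegral_algHom_iff (K.val.toRingHom.toIntAlgHom) Subtype.val_injective).mp h)
    (fun φ => by
      obtain ⟨σ, hσ⟩ := exists_iota_comp_eq φ
      obtain ⟨A, B, hA, hb⟩ := hmass σ
      refine ⟨A, B, hA, fun s h1 h2 F hF => le_trans (le_of_eq ?_)
        (hb s h1 h2 F fun p hp => ⟨(hF p hp).1, (hxp p (hF p hp).1 (hF p hp).2).1⟩)⟩
      refine Finset.sum_congr rfl fun p hp => ?_
      rw [hσ, (hxp p (hF p hp).1 (hF p hp).2).2])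
    (show (0 : ℝ) < 1 / 8 by norm_num)
  have htot : 0 < N.totient := Nat.totient_pos.mpr (NeZero.pos N)
  set I : Finset (Qb × Qb) := (Y.image Subtype.val) ×ˢ Polynomial.nthRootsFinset N.totient (1 : Qb)
  set rts : Qb × Qb → Finset Qb := fun yd =>
    (Polynomial.X ^ 2 - Polynomial.C yd.1 * Polynomial.X + Polynomial.C yd.2).roots.toFinset
  have hrts : ∀ yd (u : Qb), u ∈ rts yd ↔ u ^ 2 - yd.1 * u + yd.2 = 0 := by
    intro yd u
    have hm : (Polynomial.X ^ 2 - Polynomial.C yd.1 * Polynomial.X +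
        Polynomial.C yd.2 : Polynomial Qb).Monic := by monicity!
    simp [rts, Polynomial.mem_roots hm.ne_zero]
  set J := I.sigma rts
  set Jinf := J.filter fun yu => ∀ n : ℕ, 0 < n → yu.2 ^ n ≠ 1
  set Jfin := J.filter fun yu => ∃ n : ℕ, 0 < n ∧ yu.2 ^ n = 1
  set n₀ := ∏ yu ∈ Jfin, orderOf yu.2
  refine ⟨n₀, Finset.prod_pos fun yu hyu => ?_, fun p => (p ∉ N.primeFactors ∧ x p ∉ Y) ∨
    ∃ yu ∈ Jinf, ¬ p ∣ N ∧ a p = yu.1.1 ∧ e (p : ZMod N) = yu.1.2, ?_, ?_⟩
  · obtain ⟨n, hn, h⟩ := (Finset.mem_filter.mp hyu).2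
    exact orderOf_pos_iff.mpr (isOfFinOrder_iff_pow_eq_one.mpr ⟨n, hn, h⟩)
  · refine (hY.or (hasMassLE_biUnion Jinf _ (1 / 8 / (Jinf.card + 1)) fun yu hyu => ?_)).mono_const ?_
    · obtain ⟨hJ, hinf⟩ := Finset.mem_filter.mp hyu
      obtain ⟨-, hr⟩ := Finset.mem_sigma.mp hJ
      exact hasMassLE_of_infinite_order hrep _ _ _ ((hrts _ _).mp hr) hinf
        (fun p hp hpN => (hint p hp hpN).1) (by positivity)
    · have : (Jinf.card : ℝ) * (1 / 8 / (Jinf.card + 1)) ≤ 1 / 8 := by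
        rw [mul_div_assoc', div_le_iff₀ (by positivity)]
        nlinarith
      linarith
  · intro p hp hpN hbad u v huv huv'
    rw [not_or] at hbad
    have hpS : p ∉ N.primeFactors := fun h => hpN (Nat.mem_primeFactors.mp h).2.1
    have hxY : x p ∈ Y := by
      by_contra h
      exact hbad.1 ⟨hpS, h⟩
    have hI : (a p, e (p : ZMod N)) ∈ I := Finset.mem_product.mpr
      ⟨Finset.mem_image.mpr ⟨x p, hxY, (hxp p hp hpS).2⟩,
        (Polynomial.mem_nthRootsFinset htot _).mpr (value_pow_totient N e hp hpN)⟩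
    have key : ∀ w : Qb, w ^ 2 - a p * w + e (p : ZMod N) = 0 → w ^ n₀ = 1 := by
      intro w hw
      have hJ : (⟨(a p, e (p : ZMod N)), w⟩ : Σ _ : Qb × Qb, Qb) ∈ J :=
        Finset.mem_sigma.mpr ⟨hI, (hrts _ _).mpr hw⟩
      by_cases hfin : ∃ n : ℕ, 0 < n ∧ w ^ n = 1
      · exact orderOf_dvd_iff_pow_eq_one.mp
          (Finset.dvd_prod_of_mem (fun yu : Σ _ : Qb × Qb, Qb => orderOf yu.2)
            (Finset.mem_filter.mpr ⟨hJ, hfin⟩))
      · push Not at hfin
        exact absurd ⟨_, Finset.mem_filter.mpr ⟨hJ, hfin⟩, hpN, rfl, rfl⟩ hbad.2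
    exact ⟨key u (by rw [← huv, ← huv']; ring), key v (by rw [← huv, ← huv']; ring)⟩

include hint hmass hrep in
/-- Uniform bound: eigenvalues are roots of unity of bounded order and images are bounded. -/
theorem exists_uniform_bound :
    ∃ M : ℕ, 0 < M ∧ ∀ l : ℕ, l.Prime → ∀ A : ValuationSubring Qb, A.LiesOverPrime l →
      ∀ ρ, IsModRep N a e A l ρ →
        (∀ σ, (matHom ρ σ).det ^ M = 1 ∧ ∀ μ, IsRootOf (matHom ρ σ) μ → μ ^ M = 1) ∧
        Nat.card ρ.range ≤ M ^ 8 := by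
  obtain ⟨n₀, hn₀, Bad, hBad, hgood⟩ := exists_good_primes hint hmass hrep
  set B := N.totient with hBdef
  have htot : 0 < B := Nat.totient_pos.mpr (NeZero.pos N)
  set M := B * (2 * B + 8 * B * (n₀ * n₀)).factorial with hM
  have hM0 : 0 < M := Nat.mul_pos htot (Nat.factorial_pos _)
  refine ⟨M, hM0, fun l hl A hA ρ hρ => ?_⟩
  haveI : IsAlgClosed (ResidueField A) := Galois.isAlgClosed_residueField A
  haveI : Fintype ρ.range := (finite_range_of_factors ρ hρ.1).fintype
  set ρM := matHom (ρ.range.subtype) with hρM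
  have hinj : Function.Injective ρM := fun x y h => Subtype.ext (Units.ext h)
  have hdet : ∀ g, (ρM g).det ^ B = 1 := by
    intro g
    obtain ⟨σ, hσ⟩ := ρ.rangeRestrict_surjective g
    rw [← hσ]
    exact det_pow_totient hρ σ
  obtain ⟨E, hE, hEmem⟩ := exists_frobenius_generator_avoiding
    (factorsThrough_rangeRestrict hρ.1) ρ.rangeRestrict_surjective
    (insert l N.primeFactors) Bad hBad
  set U := Polynomial.nthRootsFinset n₀ (1 : ResidueField A)
  set T := (U ×ˢ U).image fun w => w.1 + w.2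
  have hT : T.card ≤ n₀ * n₀ := by
    refine Finset.card_image_le.trans ?_
    rw [Finset.card_product]
    have : U.card ≤ n₀ := by
      simp only [U, Polynomial.nthRootsFinset_def]
      exact (Multiset.toFinset_card_le _).trans (Polynomial.card_nthRoots _ 1)
    gcongr
  have hEtr : ∀ g ∈ E, (ρM g).trace ∈ T := by
    intro g hg
    obtain ⟨p, hp, hpS, hnb, Pl, hPl, τ, hτ, hz⟩ := hEmem g hg
    rw [Finset.mem_insert, not_or] at hpS
    have hpN : ¬ p ∣ N := fun h => hpS.2 (Nat.mem_primeFactors.mpr ⟨hp, h, NeZero.ne N⟩)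
    obtain ⟨u, v, hs, hpr, hred⟩ :=
      exists_roots_frobenius (N := N) (a := a) (e := e) hp hpN (hint p hp hpN).1
    obtain ⟨hs', hp'⟩ := hred hρ hpS.1 Pl hPl τ hτ
    obtain ⟨hu, hv⟩ := hgood p hp hpN hnb u v hs hpr
    obtain ⟨i, hi⟩ := (isOfFinOrder_of_finite (ρ.rangeRestrict τ)).mem_powers_iff_mem_zpowers.mpr
      (hz ▸ mem_zpowers g)
    simp only at hi
    rw [← hi, map_pow]
    rw [trace_pow_eq (M := ρM (ρ.rangeRestrict τ)) hs' hp' i]
    have hUmem : ∀ w : ℤb, (w : Qb) ^ n₀ = 1 → (redPlace A w) ^ i ∈ U := by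
      intro w hw
      refine (Polynomial.mem_nthRootsFinset hn₀ _).mpr ?_
      have : w ^ n₀ = 1 := Subtype.ext (by simpa using hw)
      rw [pow_right_comm, ← map_pow, this, map_one, one_pow]
    exact Finset.mem_image.mpr ⟨(_, _), Finset.mem_product.mpr ⟨hUmem u hu, hUmem v hv⟩, rfl⟩
  have hbig : 3 * Fintype.card ρ.range ≤ 4 * E.card := by
    have h : (3 : ℝ) * Fintype.card ρ.range ≤ 4 * E.card := by linarith
    exact_mod_cast h
  have hroot : ∀ g μ, IsRootOf (ρM g) μ → μ ^ M = 1 := by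
    intro g μ hμ
    have h := orderOf_root_le ρM g hμ B htot (hdet g) T E hEtr hbig
    obtain ⟨c, hc⟩ : (2 * B + 8 * B * T.card).factorial ∣ M :=
      (Nat.factorial_dvd_factorial (by gcongr)).trans (Dvd.intro_left _ hM.symm)
    rw [hc, pow_mul, h, one_pow]
  refine ⟨fun σ => ⟨?_, fun μ hμ => hroot (ρ.rangeRestrict σ) μ hμ⟩, ?_⟩
  · rw [hM, pow_mul, show (matHom ρ σ).det ^ B = 1 from hdet (ρ.rangeRestrict σ), one_pow]
  set V := Polynomial.nthRootsFinset M (1 : ResidueField A)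
  have hV : V.card ≤ M := by
    simp only [V, Polynomial.nthRootsFinset_def]
    exact (Multiset.toFinset_card_le _).trans (Polynomial.card_nthRoots _ 1)
  have hVmem : ∀ g μ, IsRootOf (ρM g) μ → μ ∈ V := fun g μ hμ =>
    (Polynomial.mem_nthRootsFinset hM0 _).mpr (hroot g μ hμ)
  have htr : ∀ g, (ρM g).trace ∈ (V ×ˢ V).image fun w => w.1 + w.2 := by
    intro g
    obtain ⟨μ, hμ⟩ := exists_isRootOf (ρM g)
    exact Finset.mem_image.mpr ⟨(μ, (ρM g).trace - μ),
      Finset.mem_product.mpr ⟨hVmem g μ hμ, hVmem g _ hμ.other⟩, add_sub_cancel _ _⟩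
  have hM1 : 1 ≤ M := hM0
  rw [Nat.card_eq_fintype_card]
  rcases hρ.2.1 with hirr | ⟨P, hP⟩
  · have hnc : NoCommonEigen ρM := by
      intro w hw
      obtain ⟨σ, hσ⟩ := noCommonEigen_of_isIrreducible hirr w hw
      exact ⟨ρ.rangeRestrict σ, hσ⟩
    refine (card_le_of_noCommonEigen hinj hnc _ htr).trans ?_
    calc ((V ×ˢ V).image fun w => w.1 + w.2).card ^ 4 ≤ (M * M) ^ 4 := by
          gcongr
          refine Finset.card_image_le.trans ?_
          rw [Finset.card_product]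
          gcongr
      _ = M ^ 8 := by ring
  · refine (card_le_of_diagonal hinj (P := (P⁻¹ : GL (Fin 2) (ResidueField A)).1) (Q := P.1)
      (Units.inv_mul P) ?_ V hVmem).trans ?_
    · intro g
      obtain ⟨σ, hσ⟩ := ρ.rangeRestrict_surjective g
      rw [← hσ]
      have h := hP σ
      rw [Units.val_mul, Units.val_mul] at h
      exact h
    · calc V.card * V.card ≤ M * M := by gcongr
        _ = M ^ 2 := by ring
        _ ≤ M ^ 8 := Nat.pow_le_pow_right hM1 (by norm_num)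

end FLTA.DeligneSerre
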