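import Mathlib.RingTheory.Jacobson.Ring
import Mathlib.RingTheory.Localization.Integral
import Mathlib.RingTheory.IntegralClosure.IsIntegralClosure.Basic
import Mathlib.FieldTheory.IsAlgClosed.AlgebraicClosure
import Mathlib.LinearAlgebra.Matrix.Trace
import Mathlib.LinearAlgebra.Matrix.Determinant.Basic
import Mathlib.RingTheory.Adjoin.FG
import Mathlib.RingTheory.FiniteType

/-!
A family of representations of a finite group modulo infinitely many characteristics with
compatible traces and determinants comes from one over an algebraic closure of `ℚ`.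
-/

set_option autoImplicit false

noncomputable section

namespace FLTA.DeligneSerre

local notation "Qb" => AlgebraicClosure ℚ
local notation "ℤb" => integralClosure ℤ Qb

theorem exists_mul_eq_intCast {x : ℤb} (hx : x ≠ 0) :
    ∃ (c : ℤ) (y : ℤb), c ≠ 0 ∧ x * y = (c : ℤb) := by
  obtain ⟨c, hc, y, hy⟩ := (Algebra.IsIntegral.isIntegral (R := ℤ) x).isAlgebraic.exists_nonzero_dvd
    (mem_nonZeroDivisors_of_ne_zero hx)
  exact ⟨c, y, hc, by rw [← hy, eq_intCast]⟩

theorem exists_lift {G : Type} [Group G] [Finite G] {ι : Type} [Infinite ι] (k : ι → Type)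
    [∀ i, Field (k i)] (red : ∀ i, ℤb →+* k i)
    (hchar : ∀ n : ℕ, n ≠ 0 → {i | (n : k i) = 0}.Finite)
    (r : ∀ i, G →* Matrix (Fin 2) (Fin 2) (k i)) (t d : G → ℤb)
    (htr : ∀ i g, (r i g).trace = red i (t g)) (hdet : ∀ i g, (r i g).det = red i (d g)) :
    ∃ R : G →* Matrix (Fin 2) (Fin 2) Qb,
      ∀ g, (R g).trace = (t g : Qb) ∧ (R g).det = (d g : Qb) := by
  classical
  -- the ideal of sequences with finite support
  let I : Ideal (∀ i, k i) :=
    { carrier := {x | {i | x i ≠ 0}.Finite}
      add_mem' := fun {a b} ha hb => (ha.union hb).subset fun i hi => by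
        by_contra h
        simp only [Set.mem_union, Set.mem_ofPred_eq, ne_eq, not_or, not_not] at h
        exact hi (by simp [h.1, h.2])
      zero_mem' := by simp
      smul_mem' := fun c x hx => hx.subset fun i (hi : c i * x i ≠ 0) => right_ne_zero_of_mul hi }
  have hI : I ≠ ⊤ := by
    rw [Ideal.ne_top_iff_one]
    intro h
    exact Set.infinite_univ (h.subset fun i _ => one_ne_zero)
  obtain ⟨m, hm, hIm⟩ := Ideal.exists_le_maximal I hI
  set κ := (∀ i, k i) ⧸ m
  letI : Field κ := Ideal.Quotient.field m
  let mk : (∀ i, k i) →+* κ := Ideal.Quotient.mk m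
  have hn : ∀ n : ℕ, n ≠ 0 → (n : κ) ≠ 0 := by
    intro n hn0 h
    rw [← map_natCast mk n, Ideal.Quotient.eq_zero_iff_mem] at h
    refine hm.ne_top ((Ideal.eq_top_iff_one m).mpr ?_)
    have hy : (fun i => if (n : k i) = 0 then (1 : k i) else 0) ∈ m := hIm ((hchar n hn0).subset
      fun i (hi : (if (n : k i) = 0 then (1 : k i) else 0) ≠ 0) => by
        by_contra hne
        exact hi (if_neg hne))
    have e : (1 : ∀ i, k i) = (fun i => if (n : k i) = 0 then (1 : k i) else 0) +
        (fun i => ((n : k i))⁻¹) * (n : ∀ i, k i) := by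
      funext i
      by_cases hz : (n : k i) = 0
      · simp [hz]
      · simp [hz]
    rw [e]
    exact add_mem hy (Ideal.mul_mem_left m _ h)
  let ψ : ℤb →+* κ := mk.comp (RingHom.pi red)
  have hψ : Function.Injective ψ := by
    rw [injective_iff_map_eq_zero]
    intro x hx
    by_contra hx0
    obtain ⟨c, y, hc, hxy⟩ := exists_mul_eq_intCast hx0
    have h2 := congrArg ψ hxy
    rw [map_mul, hx, zero_mul, map_intCast] at h2
    refine hn c.natAbs (Int.natAbs_ne_zero.mpr hc) ?_
    rcases Int.natAbs_eq c with h3 | h3 <;> rw [h3] at h2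
    · rw [Int.cast_natCast] at h2; exact h2.symm
    · rw [Int.cast_neg, Int.cast_natCast] at h2; exact neg_eq_zero.mp h2.symm
  have : Algebra.IsAlgebraic ℤ Qb := (IsFractionRing.comap_isAlgebraic_iff (A := ℤ) (K := ℚ)
    (C := Qb)).mpr inferInstance
  have : IsFractionRing ℤb Qb := integralClosure.isFractionRing_of_algebraic
    (A := ℤ) (L := Qb) fun x hx => (algebraMap ℤ Qb).injective_int (by rw [hx, map_zero])
  let j : Qb →+* κ := IsFractionRing.lift (K := Qb) hψ
  have hj : ∀ x : ℤb, j (x : Qb) = ψ x := fun x => IsFractionRing.lift_algebraMap hψ x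
  letI : Algebra Qb κ := j.toAlgebra
  -- the representation over `κ`
  let R₁ : G →* Matrix (Fin 2) (Fin 2) κ :=
    { toFun := fun g => Matrix.of fun a b => mk fun i => r i g a b
      map_one' := by
        ext a b
        rw [Matrix.of_apply]
        rcases eq_or_ne a b with rfl | h
        · rw [Matrix.one_apply_eq, ← map_one mk]
          exact congrArg mk (funext fun i => by rw [map_one, Matrix.one_apply_eq]; rfl)
        · rw [Matrix.one_apply_ne h, ← map_zero mk]
          exact congrArg mk (funext fun i => by rw [map_one, Matrix.one_apply_ne h]; rfl)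
      map_mul' := fun g h => by
        ext a b
        rw [Matrix.mul_apply, Fin.sum_univ_two, Matrix.of_apply, Matrix.of_apply, Matrix.of_apply,
          Matrix.of_apply, Matrix.of_apply, ← map_mul, ← map_mul, ← map_add]
        exact congrArg mk (funext fun i => by
          rw [map_mul, Matrix.mul_apply, Fin.sum_univ_two]; rfl) }
  have htr₁ : ∀ g, (R₁ g).trace = ψ (t g) := by
    intro g
    rw [Matrix.trace_fin_two]
    show mk _ + mk _ = mk _
    rw [← map_add]
    exact congrArg mk (funext fun i => by
      show r i g 0 0 + r i g 1 1 = red i (t g)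
      rw [← htr, Matrix.trace_fin_two])
  have hdet₁ : ∀ g, (R₁ g).det = ψ (d g) := by
    intro g
    rw [Matrix.det_fin_two]
    show mk _ * mk _ - mk _ * mk _ = mk _
    rw [← map_mul, ← map_mul, ← map_sub]
    exact congrArg mk (funext fun i => by
      show r i g 0 0 * r i g 1 1 - r i g 0 1 * r i g 1 0 = red i (d g)
      rw [← hdet, Matrix.det_fin_two])
  -- descend to a finitely generated algebra and specialise
  set E : Set κ := Set.range fun q : G × Fin 2 × Fin 2 => R₁ q.1 q.2.1 q.2.2
  set S := Algebra.adjoin Qb E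
  have : Algebra.FiniteType Qb S := S.fg_iff_finiteType.mp
    ⟨(Set.finite_range _).toFinset, by rw [Set.Finite.coe_toFinset]⟩
  obtain ⟨n, hn⟩ := Ideal.exists_maximal S
  letI : Field (S ⧸ n) := Ideal.Quotient.field n
  have : Algebra.FiniteType Qb (S ⧸ n) :=
    Algebra.FiniteType.of_surjective (Ideal.Quotient.mkₐ Qb n) Ideal.Quotient.mk_surjective
  have : Module.Finite Qb (S ⧸ n) := finite_of_finite_type_of_isJacobsonRing Qb (S ⧸ n)
  let ev : S →ₐ[Qb] Qb :=
    (AlgEquiv.ofBijective (Algebra.ofId Qb (S ⧸ n))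
      IsAlgClosed.algebraMap_bijective_of_isIntegral).symm.toAlgHom.comp (Ideal.Quotient.mkₐ Qb n)
  let R₂ : G →* Matrix (Fin 2) (Fin 2) S :=
    { toFun := fun g => Matrix.of fun a b =>
        ⟨R₁ g a b, Algebra.subset_adjoin ⟨(g, a, b), rfl⟩⟩
      map_one' := by
        ext a b
        rw [Matrix.of_apply]
        show R₁ 1 a b = _
        rw [map_one]
        rcases eq_or_ne a b with rfl | h
        · simp
        · simp [Matrix.one_apply_ne h]
      map_mul' := fun g h => by
        ext a b
        rw [Matrix.of_apply, Matrix.mul_apply, Fin.sum_univ_two]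
        show R₁ (g * h) a b = _
        rw [map_mul, Matrix.mul_apply, Fin.sum_univ_two]
        rfl }
  refine ⟨ev.toRingHom.mapMatrix.toMonoidHom.comp R₂, fun g => ⟨?_, ?_⟩⟩
  · show (ev.toRingHom.mapMatrix (R₂ g)).trace = _
    have e : (R₂ g).trace = algebraMap Qb S (t g : Qb) := Subtype.ext (by
      show ((R₂ g).trace : κ) = j (t g : Qb)
      rw [hj, ← htr₁, Matrix.trace_fin_two, Matrix.trace_fin_two]
      rfl)
    refine Eq.trans ?_ (AlgHom.commutes ev (t g : Qb))
    rw [← e, Matrix.trace_fin_two, Matrix.trace_fin_two, map_add]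
    rfl
  · show (ev.toRingHom.mapMatrix (R₂ g)).det = _
    rw [← RingHom.map_det]
    have e : (R₂ g).det = algebraMap Qb S (d g : Qb) := Subtype.ext (by
      show ((R₂ g).det : κ) = j (d g : Qb)
      rw [hj, ← hdet₁, Matrix.det_fin_two, Matrix.det_fin_two]
      rfl)
    rw [e]
    exact AlgHom.commutes ev (d g : Qb)

end FLTA.DeligneSerre
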