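import Fermat.Agent.DeligneSerre.Finite.Bound
import Fermat.Agent.DeligneSerre.Finite.Lift

/-!
For all large residue characteristics the images have the same kernel, and the family lifts to
characteristic zero.
-/

set_option autoImplicit false

noncomputable section

open IsLocalRing
open scoped Classical

namespace FLTA.DeligneSerre

local notation "Qb" => AlgebraicClosure ℚ
local notation "Γℚ" => (Qb ≃ₐ[ℚ] Qb)
local notation "ℤb" => integralClosure ℤ Qb

/-- The `M`-th roots of unity among the algebraic integers. -/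
def unitRoots (M : ℕ) : Finset ℤb := Polynomial.nthRootsFinset M (1 : ℤb)

theorem mem_unitRoots {M : ℕ} (hM : 0 < M) {w : ℤb} : w ∈ unitRoots M ↔ w ^ M = 1 :=
  Polynomial.mem_nthRootsFinset hM 1

/-- Sums of two `M`-th roots of unity. -/
def sumRoots (M : ℕ) : Finset ℤb := (unitRoots M ×ˢ unitRoots M).image fun w => w.1 + w.2

theorem exists_isPrimitiveRoot_int {M : ℕ} (hM : 0 < M) : ∃ ζ : ℤb, IsPrimitiveRoot ζ M := by
  have : NeZero M := ⟨hM.ne'⟩
  have : NeZero (M : Qb) := ⟨Nat.cast_ne_zero.mpr hM.ne'⟩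
  obtain ⟨ζ, hζ⟩ := HasEnoughRootsOfUnity.exists_primitiveRoot Qb M
  have hi : IsIntegral ℤ ζ := IsIntegral.of_pow hM (by rw [hζ.pow_eq_one]; exact isIntegral_one)
  exact ⟨⟨ζ, hi⟩, IsPrimitiveRoot.of_map_of_injective (f := (ℤb).val) hζ Subtype.val_injective⟩

/-- Where reduction is injective on the roots of unity it is onto the roots of unity. -/
theorem exists_unitRoot_redPlace {M : ℕ} (hM : 0 < M) {A : ValuationSubring Qb}
    (hinj : Set.InjOn (redPlace A) (unitRoots M : Set ℤb)) {μ : ResidueField A} (hμ : μ ^ M = 1) :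
    ∃ w ∈ unitRoots M, redPlace A w = μ := by
  obtain ⟨ζ, hζ⟩ := exists_isPrimitiveRoot_int hM
  have hcard : (unitRoots M).card = M := hζ.card_nthRootsFinset
  have hsub : (unitRoots M).image (redPlace A) ⊆
      Polynomial.nthRootsFinset M (1 : ResidueField A) := by
    intro x hx
    obtain ⟨w, hw, rfl⟩ := Finset.mem_image.mp hx
    rw [Polynomial.mem_nthRootsFinset hM, ← map_pow, (mem_unitRoots hM).mp hw, map_one]
  have heq := Finset.eq_of_subset_of_card_le hsub (by
    rw [Finset.card_image_of_injOn hinj, hcard, Polynomial.nthRootsFinset_def]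
    exact (Multiset.toFinset_card_le _).trans (Polynomial.card_nthRoots _ 1))
  have : μ ∈ (unitRoots M).image (redPlace A) :=
    heq ▸ (Polynomial.mem_nthRootsFinset hM 1).mpr hμ
  exact Finset.mem_image.mp this

variable {N : ℕ} [NeZero N] {a : ℕ → Qb} {e : DirichletCharacter Qb N} {S : Finset ℕ}
  {K : IntermediateField ℚ Qb} [FiniteDimensional ℚ K]

variable (hint : ∀ p : ℕ, p.Prime → ¬ p ∣ N → IsIntegral ℤ (a p) ∧ a p ∈ K)
  (hmass : ∀ σ : Γℚ, ∃ A B : ℝ, 0 ≤ A ∧ ∀ s : ℝ, 1 < s → s ≤ 2 → ∀ P : Finset ℕ,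
    (∀ p ∈ P, p.Prime ∧ ¬ p ∣ N) →
      ∑ p ∈ P, ‖iota (σ (a p))‖ ^ 2 * (p : ℝ) ^ (-s) ≤ A * (-Real.log (s - 1)) + B)
  (hrep : ∀ l : ℕ, l.Prime → l ∉ S → ∀ A : ValuationSubring Qb, A.LiesOverPrime l →
    ∃ ρ, IsModRep N a e A l ρ)

include hint hmass hrep in
/-- The finite image representation over an algebraic closure of `ℚ`. -/
theorem exists_finite_rep :
    ∃ (G : Type) (_ : Group G) (_ : Fintype G) (φ : Γℚ →* G)
      (R : G →* Matrix (Fin 2) (Fin 2) Qb) (M : ℕ),
      0 < M ∧ GaloisFactorsThroughFiniteLevel φ ∧ Function.Surjective φ ∧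
      ∀ p : ℕ, p.Prime → ¬ p ∣ N →
        (∃ u v : Qb, u ^ M = 1 ∧ v ^ M = 1 ∧ u + v = a p) ∧
        ∀ B : ValuationSubring Qb, B.LiesOverPrime p →
          (∀ σ ∈ B.inertiaSubgroupIn ℚ, φ σ = 1) ∧
          ∀ σ : Γℚ, B.IsFrobeniusAt σ p →
            (R (φ σ)).trace = a p ∧ (R (φ σ)).det = e (p : ZMod N) := by
  obtain ⟨M, hM, hbound⟩ := exists_uniform_bound hint hmass hrep
  obtain ⟨cV, hcV⟩ := exists_redPlace_injOn (unitRoots M ∪ sumRoots M)
  set c := max cV (max (M ^ 8) 2) with hc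
  -- good characteristics
  let ι := {l : ℕ // l.Prime ∧ l ∉ S ∧ c < l}
  have : Infinite ι := by
    refine Set.infinite_coe_iff.mpr (Set.infinite_of_forall_exists_gt
      (s := {l : ℕ | l.Prime ∧ l ∉ S ∧ c < l}) fun n => ?_)
    obtain ⟨l, h1, h2, h3⟩ := exists_large_prime S (max n c)
    exact ⟨l, ⟨h1, h2, lt_of_le_of_lt (le_max_right _ _) h3⟩,
      lt_of_le_of_lt (le_max_left _ _) h3⟩
  choose A hA using fun i : ι => Galois.exists_liesOverPrime (q := i.1) i.2.1
  choose ρ hρ using fun i : ι => hrep i.1 i.2.1 i.2.2.1 (A i) (hA i)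
  have hinjV : ∀ i : ι, Set.InjOn (redPlace (A i)) (unitRoots M ∪ sumRoots M : Finset ℤb) :=
    fun i => hcV i.1 i.2.1 (lt_of_le_of_lt (le_max_left _ _) i.2.2.2) (A i) (hA i)
  have hinjW : ∀ i : ι, Set.InjOn (redPlace (A i)) (unitRoots M : Set ℤb) :=
    fun i => (hinjV i).mono (by simp)
  -- roots at good primes are roots of unity
  have hroots : ∀ p : ℕ, p.Prime → ¬ p ∣ N → ∃ u ∈ unitRoots M, ∃ v ∈ unitRoots M,
      (u : Qb) + v = a p ∧ (u : Qb) * v = e (p : ZMod N) ∧
      ∀ i : ι, p ≠ i.1 → ∀ B : ValuationSubring Qb, B.LiesOverPrime p →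
        ∀ σ : Γℚ, B.IsFrobeniusAt σ p →
          redPlace (A i) u + redPlace (A i) v = (matHom (ρ i) σ).trace ∧
          redPlace (A i) u * redPlace (A i) v = (matHom (ρ i) σ).det := by
    intro p hp hpN
    obtain ⟨u, v, hs, hpr, hred⟩ :=
      exists_roots_frobenius (N := N) (a := a) (e := e) hp hpN (hint p hp hpN).1
    obtain ⟨c', hc'⟩ := exists_redPlace_injOn (insert u (insert v (unitRoots M)))
    obtain ⟨l, hl, hlS, hcl⟩ := exists_large_prime S (max (max c c') p)
    have hlc : c < l := lt_of_le_of_lt ((le_max_left _ _).trans (le_max_left _ _)) hcl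
    have hlc' : c' < l := lt_of_le_of_lt ((le_max_right _ _).trans (le_max_left _ _)) hcl
    let i : ι := ⟨l, hl, hlS, hlc⟩
    have hpl : p ≠ l := ne_of_lt (lt_of_le_of_lt (le_max_right _ _) hcl)
    obtain ⟨B, hB⟩ := Galois.exists_liesOverPrime (q := p) hp
    obtain ⟨τ, hτ⟩ := Galois.exists_isFrobeniusAt hp hB
    obtain ⟨hs', hp'⟩ := hred (hρ i) hpl B hB τ hτ
    have hI := hc' l hl hlc' (A i) (hA i)
    have key : ∀ w : ℤb, w ∈ insert u (insert v (unitRoots M)) →
        IsRootOf (matHom (ρ i) τ) (redPlace (A i) w) → w ∈ unitRoots M := by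
      intro w hw hroot
      obtain ⟨w', hw', hww'⟩ := exists_unitRoot_redPlace hM (hinjW i)
        (((hbound l hl (A i) (hA i) (ρ i) (hρ i)).1 τ).2 _ hroot)
      rwa [← hI (by simp [hw']) hw hww']
    refine ⟨u, key u (by simp) (isRootOf_of_sum_prod hs' hp').1, v,
      key v (by simp) (isRootOf_of_sum_prod (by rwa [add_comm]) (by rwa [mul_comm])).1, hs, hpr,
      fun i hpi B hB σ hσ => hred (hρ i) hpi B hB σ hσ⟩
  -- two characteristics have the same eigenvalues
  have hpair : ∀ (i j : ι) (σ : Γℚ), ∃ u ∈ unitRoots M, ∃ v ∈ unitRoots M,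
      (redPlace (A i) u + redPlace (A i) v = (matHom (ρ i) σ).trace ∧
        redPlace (A i) u * redPlace (A i) v = (matHom (ρ i) σ).det) ∧
      (redPlace (A j) u + redPlace (A j) v = (matHom (ρ j) σ).trace ∧
        redPlace (A j) u * redPlace (A j) v = (matHom (ρ j) σ).det) := by
    intro i j σ
    refine Density.forall_of_frobenius ((matHom (ρ i)).prod (matHom (ρ j))) ?_
      (insert i.1 (insert j.1 N.primeFactors))
      (fun m => ∃ u ∈ unitRoots M, ∃ v ∈ unitRoots M,
        (redPlace (A i) u + redPlace (A i) v = m.1.trace ∧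
          redPlace (A i) u * redPlace (A i) v = m.1.det) ∧
        (redPlace (A j) u + redPlace (A j) v = m.2.trace ∧
          redPlace (A j) u * redPlace (A j) v = m.2.det)) ?_ ?_ σ
    · obtain ⟨Li, hLi, hi⟩ := (hρ i).1
      obtain ⟨Lj, hLj, hj⟩ := (hρ j).1
      exact Density.galoisFactorsThroughFiniteLevel_prod
        ⟨Li, hLi, fun s hs => by rw [matHom_apply, hi s hs, Units.val_one]⟩
        ⟨Lj, hLj, fun s hs => by rw [matHom_apply, hj s hs, Units.val_one]⟩
    · rintro ⟨m₁, m₂⟩ k ⟨u, hu, v, hv, ⟨h1, h2⟩, ⟨h3, h4⟩⟩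
      have hW : ∀ w ∈ unitRoots M, w ^ k ∈ unitRoots M := fun w hw => (mem_unitRoots hM).mpr
        (by rw [pow_right_comm, (mem_unitRoots hM).mp hw, one_pow])
      refine ⟨u ^ k, hW u hu, v ^ k, hW v hv, ⟨?_, ?_⟩, ⟨?_, ?_⟩⟩
      · rw [map_pow, map_pow, Prod.pow_fst, trace_pow_eq h1 h2 k]
      · rw [map_pow, map_pow, Prod.pow_fst, Matrix.det_pow, ← mul_pow, h2]
      · rw [map_pow, map_pow, Prod.pow_snd, trace_pow_eq h3 h4 k]
      · rw [map_pow, map_pow, Prod.pow_snd, Matrix.det_pow, ← mul_pow, h4]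
    · intro p hp hpS B hB τ hτ
      rw [Finset.mem_insert, Finset.mem_insert, not_or, not_or] at hpS
      have hpN : ¬ p ∣ N := fun h => hpS.2.2 (Nat.mem_primeFactors.mpr ⟨hp, h, NeZero.ne N⟩)
      obtain ⟨u, hu, v, hv, -, -, hred⟩ := hroots p hp hpN
      exact ⟨u, hu, v, hv, hred i hpS.1 B hB τ hτ, hred j hpS.2.1 B hB τ hτ⟩
  -- all kernels agree
  have hker : ∀ (i j : ι) (σ : Γℚ), ρ i σ = 1 → ρ j σ = 1 := by
    intro i j σ hσ
    obtain ⟨u, hu, v, hv, ⟨h1, h2⟩, ⟨h3, h4⟩⟩ := hpair i j σ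
    have hone : (1 : ℤb) ∈ unitRoots M := (mem_unitRoots hM).mpr (one_pow M)
    rw [matHom_apply, hσ, Units.val_one, Matrix.trace_one, Fintype.card_fin] at h1
    rw [matHom_apply, hσ, Units.val_one, Matrix.det_one] at h2
    have huv : u * v = 1 := hinjW i
      (Finset.mem_coe.mpr ((mem_unitRoots hM).mpr (by
        rw [mul_pow, (mem_unitRoots hM).mp hu, (mem_unitRoots hM).mp hv, one_mul])))
      hone (by rw [map_mul, map_one, h2])
    have hsum : u + v = 1 + 1 := hinjV i
      (Finset.mem_union_right _ (Finset.mem_image.mpr ⟨(u, v), Finset.mk_mem_product hu hv, rfl⟩))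
      (Finset.mem_union_right _ (Finset.mem_image.mpr ⟨(1, 1),
        Finset.mk_mem_product hone hone, rfl⟩))
      (by rw [map_add, h1, map_add, map_one, Nat.cast_ofNat, one_add_one_eq_two])
    have : Finite (ρ j).range := (finite_range_of_factors (ρ j) (hρ j).1).to_subtype
    have hm : (Nat.card (ρ j).range : ResidueField (A j)) ≠ 0 := by
      have := Galois.charP_residueField j.2.1 (hA j)
      rw [Ne, CharP.cast_eq_zero_iff (ResidueField (A j)) j.1]
      intro hdvd
      have h1 := Nat.le_of_dvd Nat.card_pos hdvd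
      have h2 := (hbound j.1 j.2.1 (A j) (hA j) (ρ j) (hρ j)).2
      have h3 : M ^ 8 < j.1 :=
        lt_of_le_of_lt ((le_max_left _ _).trans (le_max_right cV _)) j.2.2.2
      omega
    have h := eq_one_of_trace_det (M := matHom (ρ j) σ) (m := Nat.card (ρ j).range) (by
        have h := congrArg Subtype.val
          (pow_card_eq_one' (x := ((ρ j).rangeRestrict σ)))
        rw [matHom_apply, ← Units.val_pow_eq_pow_val]
        exact congrArg Units.val h) hm
      (by rw [← h3, ← map_add, hsum, map_add, map_one, one_add_one_eq_two])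
      (by rw [← h4, ← map_mul, huv, map_one])
    exact Units.ext h
  obtain ⟨i₀⟩ := (inferInstance : Nonempty ι)
  haveI : Fintype (ρ i₀).range := (finite_range_of_factors _ (hρ i₀).1).fintype
  set φ := (ρ i₀).rangeRestrict with hφ
  have hsurj : Function.Surjective φ := (ρ i₀).rangeRestrict_surjective
  choose sec hsec using hsurj
  have hle : ∀ i : ι, φ.ker ≤ (ρ i).ker := fun i σ hσ =>
    MonoidHom.mem_ker.mpr (hker i₀ i σ (congrArg Subtype.val (MonoidHom.mem_ker.mp hσ)))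
  let r : ∀ i : ι, (ρ i₀).range →* Matrix (Fin 2) (Fin 2) (ResidueField (A i)) := fun i =>
    matHom (MonoidHom.liftOfSurjective φ (ρ i₀).rangeRestrict_surjective ⟨ρ i, hle i⟩)
  have hr : ∀ i σ, r i (φ σ) = matHom (ρ i) σ := fun i σ =>
    congrArg Units.val (MonoidHom.liftOfRightInverse_comp_apply _ _ _ ⟨ρ i, hle i⟩ σ)
  choose U hU V hV hUV using fun g => hpair i₀ i₀ (sec g)
  have hdata : ∀ (i : ι) (σ : Γℚ),
      (r i (φ σ)).trace = redPlace (A i) (U (φ σ) + V (φ σ)) ∧
      (r i (φ σ)).det = redPlace (A i) (U (φ σ) * V (φ σ)) := by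
    intro i σ
    obtain ⟨u, hu, v, hv, ⟨h1, h2⟩, ⟨h3, h4⟩⟩ := hpair i₀ i σ
    obtain ⟨⟨g1, g2⟩, -⟩ := hUV (φ σ)
    have hsame : matHom (ρ i₀) (sec (φ σ)) = matHom (ρ i₀) σ := by
      have h := congrArg Subtype.val (hsec (φ σ))
      rw [matHom_apply, matHom_apply]
      exact congrArg Units.val h
    rw [hsame] at g1 g2
    have hsum : U (φ σ) + V (φ σ) = u + v := hinjV i₀
      (Finset.mem_union_right _ (Finset.mem_image.mpr
        ⟨(_, _), Finset.mk_mem_product (hU _) (hV _), rfl⟩))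
      (Finset.mem_union_right _ (Finset.mem_image.mpr ⟨(u, v), Finset.mk_mem_product hu hv, rfl⟩))
      (by rw [map_add, map_add, g1, h1])
    have hmem : ∀ x ∈ unitRoots M, ∀ y ∈ unitRoots M, x * y ∈ unitRoots M := fun x hx y hy =>
      (mem_unitRoots hM).mpr (by
        rw [mul_pow, (mem_unitRoots hM).mp hx, (mem_unitRoots hM).mp hy, one_mul])
    have hprod : U (φ σ) * V (φ σ) = u * v :=
      hinjW i₀ (hmem _ (hU _) _ (hV _)) (hmem _ hu _ hv) (by rw [map_mul, map_mul, g2, h2])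
    rw [hr, hsum, hprod, map_add, map_mul]
    exact ⟨h3.symm, h4.symm⟩
  obtain ⟨R, hR⟩ := exists_lift (fun i : ι => ResidueField (A i)) (fun i => redPlace (A i))
    (fun n hn => by
      refine Set.Finite.subset ((Set.finite_le_nat n).preimage Subtype.val_injective.injOn)
        fun i hi => ?_
      have := Galois.charP_residueField i.2.1 (hA i)
      exact Nat.le_of_dvd (Nat.pos_of_ne_zero hn)
        ((CharP.cast_eq_zero_iff (ResidueField (A i)) i.1 n).mp hi))
    r (fun g => U g + V g) (fun g => U g * V g)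
    (fun i g => by
      obtain ⟨σ, rfl⟩ := (ρ i₀).rangeRestrict_surjective g
      exact (hdata i σ).1)
    (fun i g => by
      obtain ⟨σ, rfl⟩ := (ρ i₀).rangeRestrict_surjective g
      exact (hdata i σ).2)
  refine ⟨(ρ i₀).range, inferInstance, inferInstance, φ, R, M, hM,
    factorsThrough_rangeRestrict (hρ i₀).1, (ρ i₀).rangeRestrict_surjective, fun p hp hpN => ?_⟩
  obtain ⟨u, hu, v, hv, hs, hpr, hred⟩ := hroots p hp hpN
  refine ⟨⟨u, v, by simpa using congrArg Subtype.val ((mem_unitRoots hM).mp hu),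
    by simpa using congrArg Subtype.val ((mem_unitRoots hM).mp hv), hs⟩, fun B hB => ?_⟩
  obtain ⟨l, hl, hlS, hcl⟩ := exists_large_prime S (max c p)
  let i : ι := ⟨l, hl, hlS, lt_of_le_of_lt (le_max_left _ _) hcl⟩
  have hpl : p ≠ l := ne_of_lt (lt_of_le_of_lt (le_max_right _ _) hcl)
  refine ⟨fun σ hσ => ?_, fun σ hσ => ?_⟩
  · exact Subtype.ext (hker i i₀ σ (((hρ i).2.2 p hp hpN hpl B hB).1 σ hσ))
  · obtain ⟨g1, g2⟩ := hdata i σ
    obtain ⟨h1, h2⟩ := hred i hpl B hB σ hσ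
    rw [hr] at g1 g2
    have hmem : ∀ x ∈ unitRoots M, ∀ y ∈ unitRoots M, x * y ∈ unitRoots M := fun x hx y hy =>
      (mem_unitRoots hM).mpr (by
        rw [mul_pow, (mem_unitRoots hM).mp hx, (mem_unitRoots hM).mp hy, one_mul])
    have hsum : U (φ σ) + V (φ σ) = u + v := hinjV i
      (Finset.mem_union_right _ (Finset.mem_image.mpr
        ⟨(_, _), Finset.mk_mem_product (hU _) (hV _), rfl⟩))
      (Finset.mem_union_right _ (Finset.mem_image.mpr ⟨(u, v), Finset.mk_mem_product hu hv, rfl⟩))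
      (by rw [← g1, map_add, h1])
    have hprod : U (φ σ) * V (φ σ) = u * v :=
      hinjW i (hmem _ (hU _) _ (hV _)) (hmem _ hu _ hv) (by rw [← g2, map_mul, h2])
    obtain ⟨ht, hd⟩ := hR (φ σ)
    rw [ht, hd, hsum, hprod]
    exact ⟨hs, hpr⟩

end FLTA.DeligneSerre
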