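import Fermat.Agent.DeligneSerre.Eigen.Output
import Fermat.Agent.DeligneSerre.Mass.PrimeMass
import Fermat.Agent.DeligneSerre.Group.Diagonal

/-!
Reduction of algebraic integers at places, finiteness of images, and the predicate of being a
representation modulo a place attached to the eigenvalues.
-/

set_option autoImplicit false

noncomputable section

open IsLocalRing

namespace FLTA.DeligneSerre

local notation "Qb" => AlgebraicClosure ℚ
local notation "Γℚ" => (Qb ≃ₐ[ℚ] Qb)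
local notation "ℤb" => integralClosure ℤ Qb

/-- Reduction of algebraic integers modulo the place `A`. -/
def redPlace (A : ValuationSubring Qb) : ℤb →+* ResidueField A :=
  (residue A).comp ((ℤb).val.toRingHom.codRestrict A.toSubring
    fun x => Galois.mem_of_isIntegral x.2)

theorem residue_eq_redPlace (A : ValuationSubring Qb) (x : ℤb) (a : A) (h : (a : Qb) = x) :
    residue A a = redPlace A x :=
  congrArg (residue A) (Subtype.ext h)

theorem redPlace_eq_iff (A : ValuationSubring Qb) (x y : ℤb) :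
    redPlace A x = redPlace A y ↔ (x : Qb) - y ∈ A.nonunits :=
  Galois.residue_eq_iff_sub_mem_nonunits _ _

/-- Reduction is injective on a given finite set at all large residue characteristics. -/
theorem exists_redPlace_injOn (V : Finset ℤb) :
    ∃ c : ℕ, ∀ l : ℕ, l.Prime → c < l → ∀ A : ValuationSubring Qb, A.LiesOverPrime l →
      Set.InjOn (redPlace A) (V : Set ℤb) := by
  classical
  have h : ∀ xy : ℤb × ℤb, ∃ c : ℕ, ∀ l : ℕ, l.Prime → c < l →
      ∀ A : ValuationSubring Qb, A.LiesOverPrime l →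
        redPlace A xy.1 = redPlace A xy.2 → xy.1 = xy.2 := by
    intro xy
    by_cases he : xy.1 = xy.2
    · exact ⟨0, fun _ _ _ _ _ _ => he⟩
    · obtain ⟨c, hc0, hc⟩ := Density.exists_int_dvd_of_mem_nonunits
        (xy.1.2.sub xy.2.2) (sub_ne_zero.mpr fun h => he (Subtype.ext h))
      refine ⟨c.natAbs, fun l hl hcl A hA hred => absurd ?_ (not_le.mpr hcl)⟩
      exact Nat.le_of_dvd (Int.natAbs_pos.mpr hc0)
        (Int.natCast_dvd.mp (hc l hl A hA ((redPlace_eq_iff A _ _).mp hred)))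
  choose c hc using h
  refine ⟨(V ×ˢ V).sup c, fun l hl hcl A hA x hx y hy hxy => ?_⟩
  exact hc (x, y) l hl (lt_of_le_of_lt (Finset.le_sup (Finset.mk_mem_product hx hy)) hcl) A hA hxy

theorem exists_large_prime (S : Finset ℕ) (c : ℕ) : ∃ l : ℕ, l.Prime ∧ l ∉ S ∧ c < l := by
  obtain ⟨l, hl, hp⟩ := Nat.exists_infinite_primes (max c (S.sup id) + 1)
  refine ⟨l, hp, fun h => ?_, by omega⟩
  have := Finset.le_sup (f := id) h
  simp only [id_eq] at this
  omega

theorem finite_range_of_factors {M : Type} [MulOneClass M] (φ : Γℚ →* M)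
    (hφ : GaloisFactorsThroughFiniteLevel φ) : (Set.range φ).Finite := by
  classical
  obtain ⟨L, hL, h⟩ := hφ
  let res : Γℚ → (L →ₐ[ℚ] Qb) := fun σ => σ.toAlgHom.comp L.val
  have hsub : Set.range φ ⊆ Set.range (fun e : Set.range res => φ e.2.choose) := by
    rintro _ ⟨σ, rfl⟩
    refine ⟨⟨res σ, σ, rfl⟩, ?_⟩
    set τ := (⟨σ, rfl⟩ : ∃ y, res y = res σ).choose
    have hτ : res τ = res σ := (⟨σ, rfl⟩ : ∃ y, res y = res σ).choose_spec
    have h1 := h (σ⁻¹ * τ) fun x hx => by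
      show σ⁻¹ (τ x) = x
      rw [show τ x = σ x from AlgHom.congr_fun hτ ⟨x, hx⟩]
      exact σ.symm_apply_apply x
    show φ τ = φ σ
    calc φ τ = φ σ * φ (σ⁻¹ * τ) := by rw [← map_mul, mul_inv_cancel_left]
      _ = φ σ := by rw [h1, mul_one]
  exact (Set.finite_range _).subset hsub

theorem factorsThrough_rangeRestrict {M : Type} [Group M] {φ : Γℚ →* M}
    (hφ : GaloisFactorsThroughFiniteLevel φ) :
    GaloisFactorsThroughFiniteLevel φ.rangeRestrict := by
  obtain ⟨L, hL, h⟩ := hφ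
  exact ⟨L, hL, fun σ hσ => Subtype.ext (h σ hσ)⟩

/-- A monoid hom to matrices from a representation. -/
def matHom {G k : Type} [Group G] [Field k] (ρ : G →* GL (Fin 2) k) :
    G →* Matrix (Fin 2) (Fin 2) k :=
  (Units.coeHom _).comp ρ

@[simp] theorem matHom_apply {G k : Type} [Group G] [Field k] (ρ : G →* GL (Fin 2) k) (g : G) :
    matHom ρ g = ((ρ g : GL (Fin 2) k) : Matrix (Fin 2) (Fin 2) k) := rfl

variable (N : ℕ) (a : ℕ → Qb) (e : DirichletCharacter Qb N)

/-- `ρ` is a representation modulo `A` attached to the eigenvalues `a`, `e`. -/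
def IsModRep (A : ValuationSubring Qb) (l : ℕ) (ρ : Γℚ →* GL (Fin 2) (ResidueField A)) : Prop :=
  GaloisFactorsThroughFiniteLevel ρ ∧ IsSemisimpleTwo ρ ∧
    ∀ p : ℕ, p.Prime → ¬ p ∣ N → p ≠ l → ∀ B : ValuationSubring Qb, B.LiesOverPrime p →
      (∀ σ ∈ B.inertiaSubgroupIn ℚ, ρ σ = 1) ∧
      ∀ σ : Γℚ, B.IsFrobeniusAt σ p →
        ∃ a' e' : A, (a' : Qb) = a p ∧ (e' : Qb) = e (p : ZMod N) ∧
          ((ρ σ : GL (Fin 2) _) : Matrix (Fin 2) (Fin 2) _).trace = residue A a' ∧
          ((ρ σ : GL (Fin 2) _) : Matrix (Fin 2) (Fin 2) _).det = residue A e'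

theorem value_pow_totient [NeZero N] {p : ℕ} (hp : p.Prime) (hpN : ¬ p ∣ N) :
    (e (p : ZMod N)) ^ N.totient = 1 := by
  have hu : IsUnit (p : ZMod N) :=
    (ZMod.isUnit_iff_coprime p N).mpr ((Nat.Prime.coprime_iff_not_dvd hp).mpr hpN)
  obtain ⟨u, hu⟩ := hu
  rw [← hu, ← map_pow, ← Units.val_pow_eq_pow_val, ZMod.pow_totient, Units.val_one, map_one]

variable {N a e}

/-- The roots of `X² - a p X + e p` and their reductions. -/
theorem exists_roots_frobenius [NeZero N] {p : ℕ} (hp : p.Prime) (hpN : ¬ p ∣ N)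
    (ha : IsIntegral ℤ (a p)) :
    ∃ u v : ℤb, (u : Qb) + v = a p ∧ (u : Qb) * v = e (p : ZMod N) ∧
      ∀ {A : ValuationSubring Qb} {l : ℕ} {ρ : Γℚ →* GL (Fin 2) (ResidueField A)},
        IsModRep N a e A l ρ → p ≠ l → ∀ (B : ValuationSubring Qb), B.LiesOverPrime p →
          ∀ σ : Γℚ, B.IsFrobeniusAt σ p →
            redPlace A u + redPlace A v = (matHom ρ σ).trace ∧
            redPlace A u * redPlace A v = (matHom ρ σ).det := by
  have he : IsIntegral ℤ (e (p : ZMod N)) := by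
    refine IsIntegral.of_pow (Nat.totient_pos.mpr (NeZero.pos N)) ?_
    rw [value_pow_totient N e hp hpN]
    exact isIntegral_one
  obtain ⟨u, hu⟩ := IsAlgClosed.exists_eq_mul_self ((a p / 2) ^ 2 - e (p : ZMod N))
  have hroot : (a p / 2 + u) ^ 2 - a p * (a p / 2 + u) + e (p : ZMod N) = 0 := by
    linear_combination -hu
  have huint : IsIntegral ℤ (a p / 2 + u) := by
    have h0 : IsIntegral ℤb (a p / 2 + u) :=
      ⟨Polynomial.X ^ 2 - Polynomial.C (⟨a p, ha⟩ : ℤb) * Polynomial.X +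
          Polynomial.C (⟨_, he⟩ : ℤb), by monicity!, by
        simp only [Polynomial.eval₂_add, Polynomial.eval₂_sub, Polynomial.eval₂_mul,
          Polynomial.eval₂_pow, Polynomial.eval₂_X, Polynomial.eval₂_C]
        exact hroot⟩
    exact isIntegral_trans _ h0
  have hvint : IsIntegral ℤ (a p - (a p / 2 + u)) := ha.sub huint
  have hsum : (⟨_, huint⟩ : ℤb).1 + (⟨_, hvint⟩ : ℤb).1 = a p := by
    show a p / 2 + u + (a p - (a p / 2 + u)) = a p
    ring
  have hprod : (⟨_, huint⟩ : ℤb).1 * (⟨_, hvint⟩ : ℤb).1 = e (p : ZMod N) := by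
    show (a p / 2 + u) * (a p - (a p / 2 + u)) = _
    linear_combination -hroot
  refine ⟨⟨_, huint⟩, ⟨_, hvint⟩, hsum, hprod, ?_⟩
  intro A l ρ hρ hpl B hB σ hσ
  obtain ⟨a', e', ha', he', htr, hdet⟩ := (hρ.2.2 p hp hpN hpl B hB).2 σ hσ
  rw [matHom_apply, htr, hdet, ← map_add, ← map_mul]
  exact ⟨(residue_eq_redPlace A _ a' (ha'.trans hsum.symm)).symm,
    (residue_eq_redPlace A _ e' (he'.trans hprod.symm)).symm⟩

theorem isRootOf_of_sum_prod {k : Type*} [Field k] {M : Matrix (Fin 2) (Fin 2) k} {u v : k}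
    (h₁ : u + v = M.trace) (h₂ : u * v = M.det) : IsRootOf M u ∧ M.trace - u = v := by
  refine ⟨?_, by rw [← h₁]; ring⟩
  rw [IsRootOf, ← h₁, ← h₂]
  ring

/-- The determinant of a mod `A` representation is killed by `φ(N)`. -/
theorem det_pow_totient [NeZero N] {A : ValuationSubring Qb} {l : ℕ}
    {ρ : Γℚ →* GL (Fin 2) (ResidueField A)} (hρ : IsModRep N a e A l ρ) (σ : Γℚ) :
    (matHom ρ σ).det ^ N.totient = 1 := by
  refine Density.forall_of_frobenius ρ hρ.1 (insert l N.primeFactors)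
    (fun g => (g : Matrix (Fin 2) (Fin 2) (ResidueField A)).det ^ N.totient = 1) ?_ ?_ σ
  · intro g k hg
    rw [Units.val_pow_eq_pow_val, Matrix.det_pow, ← pow_mul, mul_comm, pow_mul, hg, one_pow]
  · intro p hp hpS B hB τ hτ
    rw [Finset.mem_insert, not_or] at hpS
    have hpN : ¬ p ∣ N := fun h => hpS.2 (Nat.mem_primeFactors.mpr ⟨hp, h, NeZero.ne N⟩)
    obtain ⟨a', e', -, he', -, hdet⟩ := (hρ.2.2 p hp hpN hpS.1 B hB).2 τ hτ
    have h1 : e' ^ N.totient = 1 := Subtype.ext (by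
      simp [he', value_pow_totient N e hp hpN])
    rw [hdet, ← map_pow, h1, map_one]

end FLTA.DeligneSerre
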